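/-
PROGRAMME III (S48 = Deligne–Serre, row 43): THE SKELETON, v4 (helper4).

Every kernel is a named `def … : Prop` (a closed statement); the glue from the kernels to the
frozen S48 statement is PROVED in this file (`s48_of_kernels`).  v2 follows the organiser's shape
(board #1946, mail 28680): everything is stated on the eigensystem `a : ℕ → ℂ` restricted to the
primes `p ∤ N` (`IsW1Sys`), never on the other coefficients of `f`.

Kernels (owner's literal in brackets):
  DS1a  conjugate eigensystems (σ ∈ Aut ℂ)                              [helper25 draft]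
  DS1b  integrality + number field                                       [helper25 draft]
  DS2   Rankin bound with constant 1 on the primes                       [helper14/helper20, GREEN]
  DS3   DS1a → DS1b → DS2 → finite value set with exceptional density ≤ η
  DS4   mod-ℓ representations for an infinite set of ℓ (∃ k φ ρ)
  ChebDens  one-sided DENSITY form of Chebotarev over ℚ (finite-set form)   [helper15's literal #1966]
  DS5   trace-counting bound for finite semisimple subgroups of GL₂(F)   [helper21, GREEN]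
  DS6   infinitely many bounded mod-ℓ representations ⇒ complex one      [helper7's literal]
  DS7   irreducibility from the conjugate Rankin bounds                  [helper11's literal #1965]
Glue proved here: `semisimple_of_irreducible_or_diag`, `finite_range_of_finiteLevel`,
  `exists_galois_ge`, `exists_factor_restrict`, `card_preimage_mul_card`,
  `card_range_le` (DS3 ∧ ChebDens ∧ DS5 ⇒ |im ρ_ℓ| ≤ 2|Y|⁴ = the organiser's DS5-ASM),
  `s48_of_kernels` (⇒ frozen S48 verbatim).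
Imports: Mathlib + the two Prelude definition modules of S48 + main's S54/FrobExists (existence of
Frobenius elements at every prime).
-/
import Mathlib
import Fermat.Prelude.Def_GaloisRep_Residual
import Fermat.Prelude.Def_Deformations_MatrixRepresentation
import Fermat.Agent.S54.FrobExists

set_option autoImplicit false
open CongruenceSubgroup
open scoped MatrixGroups
local notation "Γℚ" => (AlgebraicClosure ℚ ≃ₐ[ℚ] AlgebraicClosure ℚ)
local notation "Zbar" => (integralClosure ℤ ℂ)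

namespace Fermat.Agent.DS.S48Skeleton

open ModularFormClass

/-! ## Vocabulary -/

/-- `a` is (on the primes `p ∤ N`) the eigensystem of a weight-one cusp form on `Γ₁(N)` satisfying
the hypotheses of the frozen statement S48 for the character `ε`. -/
def IsW1Sys (N : ℕ) (ε : DirichletCharacter ℂ N) (a : ℕ → ℂ) : Prop :=
  ∃ f : CuspForm (Gamma1 N) 1, qCoeff f 1 = 1 ∧
    (∀ p : ℕ, p.Prime → ¬ p ∣ N → ∀ n : ℕ,
      qCoeff f (p * n) + ε (p : ZMod N) * (if p ∣ n then qCoeff f (n / p) else 0) =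
        qCoeff f p * qCoeff f n) ∧
    ∀ p : ℕ, p.Prime → ¬ p ∣ N → qCoeff f p = a p

/-- `ρ` is a semisimple mod-`ℓ` representation attached to `(a, e)` (sequences of algebraic
integers) outside `N ℓ`, along the residue map `φ : ℤ̄ → k`. -/
structure IsModLRep (N : ℕ) (a e : ℕ → Zbar) (ℓ : ℕ) {k : Type} [Field k]
    (φ : Zbar →+* k) (ρ : Γℚ →* GL (Fin 2) k) : Prop where
  finiteLevel : GaloisFactorsThroughFiniteLevel ρ
  semisimple : (Deformation.matrixRepresentation ρ).IsIrreducible ∨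
    ∃ P : GL (Fin 2) k, ∀ g : Γℚ,
      ((P * ρ g * P⁻¹ : GL (Fin 2) k) : Matrix (Fin 2) (Fin 2) k).IsDiag
  locally : ∀ p : ℕ, p.Prime → ¬ p ∣ N → p ≠ ℓ →
    ∀ A : ValuationSubring (AlgebraicClosure ℚ), A.LiesOverPrime p →
      (∀ σ ∈ A.inertiaSubgroupIn ℚ, ρ σ = 1) ∧
      ∀ σ : Γℚ, A.IsFrobeniusAt σ p →
        ((ρ σ : GL (Fin 2) k) : Matrix (Fin 2) (Fin 2) k).trace = φ (a p) ∧
        ((ρ σ : GL (Fin 2) k) : Matrix (Fin 2) (Fin 2) k).det = φ (e p)

/-- helper7's input of DS6 at one prime `l` (finding #1955, verbatim). -/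
def HasModRep (N A : ℕ) (a e : ℕ → Zbar) (l : ℕ) : Prop :=
  ∃ (k : Type) (_ : Field k) (_ : CharP k l) (φ : Zbar →+* k) (ρ : Γℚ →* GL (Fin 2) k),
    GaloisFactorsThroughFiniteLevel ρ ∧
    (∀ g : Γℚ, ∃ m : ℕ, 0 < m ∧ m ≤ A ∧ ρ g ^ m = 1) ∧
    ∀ p : ℕ, p.Prime → ¬ p ∣ N → p ≠ l →
      ∀ A' : ValuationSubring (AlgebraicClosure ℚ), A'.LiesOverPrime p →
        (∀ σ ∈ A'.inertiaSubgroupIn ℚ, ρ σ = 1) ∧
        ∀ σ : Γℚ, A'.IsFrobeniusAt σ p →
          ((ρ σ : GL (Fin 2) k) : Matrix (Fin 2) (Fin 2) k).trace = φ (a p) ∧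
          ((ρ σ : GL (Fin 2) k) : Matrix (Fin 2) (Fin 2) k).det = φ (e p)

/-- The conclusion of S48 minus irreducibility: `ρ` is attached to `(a, ε)` outside `N`. -/
def IsAttached (N : ℕ) (ε : DirichletCharacter ℂ N) (a : ℕ → ℂ) (ρ : Γℚ →* GL (Fin 2) ℂ) : Prop :=
  ∀ p : ℕ, p.Prime → ¬ p ∣ N →
    ∀ A : ValuationSubring (AlgebraicClosure ℚ), A.LiesOverPrime p →
      (∀ σ ∈ A.inertiaSubgroupIn ℚ, ρ σ = 1) ∧
      ∀ σ : Γℚ, A.IsFrobeniusAt σ p →
        ((ρ σ : GL (Fin 2) ℂ) : Matrix (Fin 2) (Fin 2) ℂ).trace = a p ∧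
        ((ρ σ : GL (Fin 2) ℂ) : Matrix (Fin 2) (Fin 2) ℂ).det = ε (p : ZMod N)

/-! ## The kernels -/

/-- **DS1a** (conjugate eigensystems, SAME level; helper22's O1 in system form): every `σ ∈ Aut ℂ`
carries an eigensystem to an eigensystem. -/
def DS1a : Prop :=
  ∀ (N : ℕ) [NeZero N] (ε : DirichletCharacter ℂ N) (a : ℕ → ℂ), IsW1Sys N ε a →
    ∀ σ : ℂ ≃+* ℂ, IsW1Sys N (ε.ringHomComp σ.toRingHom) (fun p => σ (a p))

/-- **DS1b** (integrality + number field). -/
def DS1b : Prop :=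
  ∀ (N : ℕ) [NeZero N] (ε : DirichletCharacter ℂ N) (a : ℕ → ℂ), IsW1Sys N ε a →
    (∀ p : ℕ, p.Prime → ¬ p ∣ N → IsIntegral ℤ (a p)) ∧
    ∃ K : IntermediateField ℚ ℂ, FiniteDimensional ℚ K ∧ ∀ p : ℕ, p.Prime → ¬ p ∣ N → a p ∈ K

/-- **DS2** (Rankin, constant `1`, on the primes). -/
def DS2 : Prop :=
  ∀ (N : ℕ) [NeZero N] (ε : DirichletCharacter ℂ N) (a : ℕ → ℂ), IsW1Sys N ε a →
    ∃ C : ℝ, ∀ s : ℝ, 1 < s → s ≤ 2 → ∀ P : Finset ℕ, (∀ p ∈ P, p.Prime ∧ ¬ p ∣ N) →
      ∑ p ∈ P, ‖a p‖ ^ 2 * (p : ℝ) ^ (-s) ≤ Real.log (1 / (s - 1)) + C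

/-- **DS3** (finite value set): from DS1a, DS1b, DS2, for every `η > 0` there is a finite `Y ⊆ ℂ`
such that the primes `p ∤ N` with `a_p ∉ Y` have upper Dirichlet density `≤ η` (finite-set form). -/
def DS3 : Prop :=
  DS1a → DS1b → DS2 →
  ∀ (N : ℕ) [NeZero N] (ε : DirichletCharacter ℂ N) (a : ℕ → ℂ), IsW1Sys N ε a →
    ∀ η : ℝ, 0 < η → ∃ (Y : Finset ℂ) (C : ℝ), ∀ s : ℝ, 1 < s → s ≤ 2 →
      ∀ F : Finset ℕ, (∀ p ∈ F, p.Prime ∧ ¬ p ∣ N ∧ a p ∉ Y) →
        ∑ p ∈ F, 1 / (p : ℝ) ^ s ≤ η * Real.log (1 / (s - 1)) + C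

/-- **DS4** (mod-`ℓ` representations): for an infinite set of primes `ℓ`, a residue map and a
semisimple `ρ_ℓ` (the owner chooses `k`, `φ`). -/
def DS4 : Prop :=
  ∀ (N : ℕ) [NeZero N] (ε : DirichletCharacter ℂ N) (a e : ℕ → Zbar),
    IsW1Sys N ε (fun n => (a n : ℂ)) → (∀ p : ℕ, (e p : ℂ) = ε (p : ZMod N)) →
    ∃ L : Set ℕ, L.Infinite ∧ ∀ ℓ ∈ L, ℓ.Prime ∧
      ∃ (k : Type) (_ : Field k) (_ : CharP k ℓ) (φ : Zbar →+* k) (ρ : Γℚ →* GL (Fin 2) k),
        IsModLRep N a e ℓ φ ρ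

/-- **CHEB-DENS** (helper15's target literal, finding #1966): one-sided density form of
Chebotarev's theorem over `ℚ`, finite-set form, Prelude vocabulary. -/
def ChebDens : Prop :=
  ∀ (L : IntermediateField ℚ (AlgebraicClosure ℚ)) [FiniteDimensional ℚ L] [IsGalois ℚ L]
    (B : Set (L ≃ₐ[ℚ] L)), (∀ g h : L ≃ₐ[ℚ] L, h ∈ B → g * h * g⁻¹ ∈ B) →
    ∀ δ : ℝ, 0 < δ → ∀ T : Finset ℕ,
    ∃ K₀ : ℝ, ∀ s : ℝ, 1 < s → s ≤ 2 → ∃ F : Finset ℕ,
      (∀ p ∈ F, p.Prime ∧ p ∉ T ∧
        ∀ A : ValuationSubring (AlgebraicClosure ℚ), A.LiesOverPrime p →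
          ∀ φ : Γℚ, A.IsFrobeniusAt φ p → AlgEquiv.restrictNormalHom L φ ∈ B) ∧
      ((Nat.card B : ℝ) / (Nat.card (L ≃ₐ[ℚ] L) : ℝ) - δ) * Real.log (1 / (s - 1)) - K₀ ≤
        ∑ p ∈ F, 1 / (p : ℝ) ^ s

/-- **DS5** (group theory, the trace trick): a finite semisimple subgroup of `GL₂(F)`, `2 ≠ 0`, in
which at least `7/8` of the elements have their trace in a finite set `T` has order `≤ 2 |T|⁴`. -/
def DS5 : Prop :=
  ∀ (F : Type) [Field F], (2 : F) ≠ 0 → ∀ (G : Subgroup (GL (Fin 2) F)) [Finite G],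
    (∀ W : Submodule F (Fin 2 → F),
      (∀ g ∈ G, ∀ v ∈ W, ((g : GL (Fin 2) F) : Matrix (Fin 2) (Fin 2) F).mulVec v ∈ W) →
      ∃ W' : Submodule F (Fin 2 → F),
        (∀ g ∈ G, ∀ v ∈ W', ((g : GL (Fin 2) F) : Matrix (Fin 2) (Fin 2) F).mulVec v ∈ W') ∧
          IsCompl W W') →
    ∀ T : Finset F,
      7 * Nat.card G ≤
        8 * Nat.card {g : G // ((g : GL (Fin 2) F) : Matrix (Fin 2) (Fin 2) F).trace ∈ T} →
      Nat.card G ≤ 2 * T.card ^ 4

/-- **DS6** (characteristic `0` from infinitely many `ℓ`; helper7's `exists_complex_rep`). -/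
def DS6 : Prop :=
  ∀ (N A : ℕ) [NeZero N] (a e : ℕ → Zbar) (L : Set ℕ), L.Infinite →
    (∀ l ∈ L, l.Prime ∧ HasModRep N A a e l) →
    ∃ ρ : Γℚ →* GL (Fin 2) ℂ, GaloisFactorsThroughFiniteLevel ρ ∧
      ∀ p : ℕ, p.Prime → ¬ p ∣ N →
        ∀ A' : ValuationSubring (AlgebraicClosure ℚ), A'.LiesOverPrime p →
          (∀ σ ∈ A'.inertiaSubgroupIn ℚ, ρ σ = 1) ∧
          ∀ σ : Γℚ, A'.IsFrobeniusAt σ p →
            ((ρ σ : GL (Fin 2) ℂ) : Matrix (Fin 2) (Fin 2) ℂ).trace = ((a p : Zbar) : ℂ) ∧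
            ((ρ σ : GL (Fin 2) ℂ) : Matrix (Fin 2) (Fin 2) ℂ).det = ((e p : Zbar) : ℂ)

/-- **DS7** (irreducibility; helper11's `isIrreducible_of_conj_bounds`, finding #1965, verbatim):
the Rankin bound with constant `1` for EVERY conjugate of the trace sequence forces irreducibility. -/
def DS7 : Prop :=
  ∀ (N : ℕ), N ≠ 0 → ∀ (a : ℕ → ℂ) (ρ : Γℚ →* GL (Fin 2) ℂ),
    GaloisFactorsThroughFiniteLevel ρ →
    (∀ p : ℕ, p.Prime → ¬ p ∣ N →
      ∀ A : ValuationSubring (AlgebraicClosure ℚ), A.LiesOverPrime p →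
        ∀ σ : Γℚ, A.IsFrobeniusAt σ p →
          ((ρ σ : GL (Fin 2) ℂ) : Matrix (Fin 2) (Fin 2) ℂ).trace = a p) →
    (∀ τ : ℂ ≃+* ℂ, ∃ C : ℝ, ∀ s : ℝ, 1 < s → s ≤ 2 → ∀ F : Finset ℕ,
      (∀ p ∈ F, p.Prime ∧ ¬ p ∣ N) →
        ∑ p ∈ F, ‖τ (a p)‖ ^ 2 / (p : ℝ) ^ s ≤ Real.log (1 / (s - 1)) + C) →
    (Deformation.matrixRepresentation ρ).IsIrreducible

/-! ## Glue 1: the limit `s → 1⁺` -/

/-- The limit `s → 1⁺`: an inequality between multiples of `log (1/(s-1))` up to `O(1)` is an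
inequality between the coefficients. -/
theorem le_of_forall_log {δ η B : ℝ}
    (h : ∀ s : ℝ, 1 < s → s ≤ 2 → δ * Real.log (1 / (s - 1)) ≤ η * Real.log (1 / (s - 1)) + B) :
    δ ≤ η := by
  by_contra hlt
  rw [not_le] at hlt
  have hpos : 0 < δ - η := by linarith
  set t : ℝ := max 0 (B / (δ - η)) + 1 with ht
  have ht0 : 0 < t := by positivity
  have hs1 : 1 < 1 + Real.exp (-t) := by linarith [Real.exp_pos (-t)]
  have hs2 : 1 + Real.exp (-t) ≤ 2 := by
    have : Real.exp (-t) ≤ 1 := Real.exp_le_one_iff.mpr (by linarith)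
    linarith
  have hlog : Real.log (1 / (1 + Real.exp (-t) - 1)) = t := by
    rw [add_sub_cancel_left, one_div, ← Real.exp_neg, neg_neg, Real.log_exp]
  have := h _ hs1 hs2
  rw [hlog] at this
  have h2 : B / (δ - η) < t := by
    have := le_max_right 0 (B / (δ - η)); linarith
  have h3 : B < (δ - η) * t := by
    rw [div_lt_iff₀ hpos] at h2; linarith
  nlinarith

/-! ## Glue 2: finite level ⇒ finite image -/

/-- A homomorphism from `G_ℚ` to a group that factors through finite level has finite range. -/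
theorem finite_range_of_finiteLevel {M : Type} [Group M] (r : Γℚ →* M)
    (h : GaloisFactorsThroughFiniteLevel r) : (Set.range r).Finite := by
  classical
  obtain ⟨L, hL, h1⟩ := h
  have : FiniteDimensional ℚ L := hL
  let res : Γℚ → (L →ₐ[ℚ] AlgebraicClosure ℚ) := fun σ =>
    (σ : AlgebraicClosure ℚ →ₐ[ℚ] AlgebraicClosure ℚ).comp L.val
  have key : ∀ σ τ : Γℚ, res σ = res τ → r σ = r τ := by
    intro σ τ hst
    have h2 : r (τ⁻¹ * σ) = 1 := by
      apply h1
      intro x hx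
      have : σ x = τ x := DFunLike.congr_fun hst ⟨x, hx⟩
      rw [AlgEquiv.mul_apply, this]
      exact τ.symm_apply_apply x
    rw [map_mul, map_inv, inv_mul_eq_one] at h2
    exact h2.symm
  let F : (L →ₐ[ℚ] AlgebraicClosure ℚ) → M := fun e =>
    if h : ∃ σ, res σ = e then r h.choose else 1
  have hF : ∀ σ, r σ = F (res σ) := by
    intro σ
    have hex : ∃ τ, res τ = res σ := ⟨σ, rfl⟩
    simp only [F, dif_pos hex]
    exact key _ _ hex.choose_spec.symm
  refine (Set.finite_range F).subset ?_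
  rintro _ ⟨σ, rfl⟩
  exact ⟨res σ, (hF σ).symm⟩


/-! ## Glue 3: `irreducible ∨ diagonalisable` ⇒ semisimple (invariant complements) -/

section Semisimple

open Matrix

variable {k : Type} [Field k] {Γ : Type} [Group Γ]

/-- invariant subspaces of an irreducible representation -/
theorem eq_bot_or_eq_top_of_isIrreducible (ρ : Γ →* GL (Fin 2) k)
    (hirr : (Deformation.matrixRepresentation ρ).IsIrreducible)
    (W : Submodule k (Fin 2 → k))
    (hW : ∀ g : Γ, ∀ x ∈ W, ((ρ g : GL (Fin 2) k) : Matrix (Fin 2) (Fin 2) k).mulVec x ∈ W) :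
    W = ⊥ ∨ W = ⊤ := by
  let S : Subrepresentation (Deformation.matrixRepresentation ρ) :=
    ⟨W, fun g v hv => by
      have := hW g v hv
      simpa [Deformation.matrixRepresentation_apply] using this⟩
  rcases eq_bot_or_eq_top S with h | h
  · exact Or.inl (congrArg Subrepresentation.toSubmodule h)
  · exact Or.inr (congrArg Subrepresentation.toSubmodule h)

omit [Group Γ] in
/-- A family of matrices simultaneously diagonalised by `P` is semisimple on `k²`. -/
theorem exists_isCompl_of_isDiag (M : Γ → Matrix (Fin 2) (Fin 2) k)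
    (Pm Qm : Matrix (Fin 2) (Fin 2) k) (h1 : Qm * Pm = 1) (h2 : Pm * Qm = 1)
    (hd : ∀ g, (Pm * M g * Qm).IsDiag)
    (W : Submodule k (Fin 2 → k)) (hW : ∀ g, ∀ v ∈ W, (M g).mulVec v ∈ W) :
    ∃ W' : Submodule k (Fin 2 → k), (∀ g, ∀ v ∈ W', (M g).mulVec v ∈ W') ∧ IsCompl W W' := by
  classical
  -- the diagonal entries
  set d : Γ → Fin 2 → k := fun g i => (Pm * M g * Qm) i i with hdd
  have hD : ∀ g, Pm * M g * Qm = Matrix.diagonal (d g) := by
    intro g
    ext i j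
    by_cases hij : i = j
    · subst hij; simp [hdd]
    · rw [Matrix.diagonal_apply_ne _ hij]; exact hd g hij
  -- coordinates
  have hcoord : ∀ g v, Pm.mulVec ((M g).mulVec v) = fun i => d g i * (Pm.mulVec v) i := by
    intro g v
    have : Pm * M g = Matrix.diagonal (d g) * Pm := by
      calc Pm * M g = Pm * M g * (Qm * Pm) := by rw [h1, mul_one]
        _ = (Pm * M g * Qm) * Pm := by simp only [Matrix.mul_assoc]
        _ = Matrix.diagonal (d g) * Pm := by rw [hD]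
    rw [Matrix.mulVec_mulVec, this, ← Matrix.mulVec_mulVec]
    ext i
    simp [Matrix.mulVec_diagonal]
  have hback : ∀ v : Fin 2 → k, Qm.mulVec (Pm.mulVec v) = v := by
    intro v; rw [Matrix.mulVec_mulVec, h1, Matrix.one_mulVec]
  have hinj : ∀ v : Fin 2 → k, Pm.mulVec v = 0 → v = 0 := by
    intro v hv; rw [← hback v, hv, Matrix.mulVec_zero]
  by_cases hsc : ∀ g, d g 0 = d g 1
  · -- scalar case
    obtain ⟨W', hW'⟩ := Submodule.exists_isCompl W
    refine ⟨W', fun g v hv => ?_, hW'⟩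
    have : (M g).mulVec v = d g 0 • v := by
      apply_fun Pm.mulVec using (fun a b hab => by
        have := hinj (a - b) (by rw [Matrix.mulVec_sub, hab, sub_self])
        exact sub_eq_zero.mp this)
      rw [hcoord, Matrix.mulVec_smul]
      ext i
      fin_cases i
      · simp
      · simp [hsc g]
    rw [this]
    exact W'.smul_mem _ hv
  · -- a separating element
    push Not at hsc
    obtain ⟨g₀, hg₀⟩ := hsc
    have hinj' : Function.Injective Pm.mulVec := fun a b hab => by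
      have := hinj (a - b) (by rw [Matrix.mulVec_sub, hab, sub_self])
      exact sub_eq_zero.mp this
    have hfwd : ∀ c : Fin 2 → k, Pm.mulVec (Qm.mulVec c) = c := by
      intro c; rw [Matrix.mulVec_mulVec, h2, Matrix.one_mulVec]
    have htwo : ∀ i j l : Fin 2, i ≠ j → l = i ∨ l = j := by
      intro i j l; fin_cases i <;> fin_cases j <;> fin_cases l <;> simp
    -- projections of `W` to the coordinate lines stay in `W`
    have key : ∀ i j : Fin 2, i ≠ j → d g₀ i ≠ d g₀ j → ∀ v ∈ W,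
        Qm.mulVec (Pi.single i ((Pm.mulVec v) i)) ∈ W := by
      intro i j hij hdij v hv
      have hw : (d g₀ i - d g₀ j)⁻¹ • ((M g₀).mulVec v - d g₀ j • v) ∈ W :=
        W.smul_mem _ (W.sub_mem (hW g₀ v hv) (W.smul_mem _ hv))
      convert hw using 1
      apply hinj'
      rw [hfwd, Matrix.mulVec_smul, Matrix.mulVec_sub, hcoord, Matrix.mulVec_smul]
      have hne : d g₀ i - d g₀ j ≠ 0 := sub_ne_zero.mpr hdij
      ext l
      rcases htwo i j l hij with rfl | rfl
      · simp only [Pi.single_eq_same, Pi.smul_apply, Pi.sub_apply, smul_eq_mul]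
        field_simp
      · simp only [Pi.single_eq_of_ne (Ne.symm hij), Pi.smul_apply, Pi.sub_apply, smul_eq_mul]
        ring
    have hproj : ∀ v ∈ W, ∀ i : Fin 2, Qm.mulVec (Pi.single i ((Pm.mulVec v) i)) ∈ W := by
      intro v hv i
      fin_cases i
      · exact key 0 1 (by decide) hg₀ v hv
      · exact key 1 0 (by decide) (fun h => hg₀ h.symm) v hv
    -- `In i`: `W` contains the `i`-th coordinate line
    let In : Fin 2 → Prop := fun i => ∃ c : k, c ≠ 0 ∧ Qm.mulVec (Pi.single i c) ∈ W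
    let W' : Submodule k (Fin 2 → k) :=
      { carrier := {v | ∀ i, In i → (Pm.mulVec v) i = 0}
        add_mem' := by
          intro a b ha hb i hi
          rw [Matrix.mulVec_add, Pi.add_apply, ha i hi, hb i hi, add_zero]
        zero_mem' := by
          intro i _
          rw [Matrix.mulVec_zero]; rfl
        smul_mem' := by
          intro c a ha i hi
          rw [Matrix.mulVec_smul, Pi.smul_apply, ha i hi, smul_zero] }
    have hW'mem : ∀ v, v ∈ W' ↔ ∀ i, In i → (Pm.mulVec v) i = 0 := fun v => Iff.rfl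
    refine ⟨W', ?_, ?_, ?_⟩
    · -- invariance
      intro g v hv i hi
      rw [hcoord]
      show d g i * (Pm.mulVec v) i = 0
      rw [(hW'mem v).mp hv i hi, mul_zero]
    · -- disjoint
      rw [Submodule.disjoint_def]
      intro v hvW hvW'
      apply hinj
      ext i
      by_contra hne
      have hi : In i := ⟨(Pm.mulVec v) i, hne, hproj v hvW i⟩
      exact hne ((hW'mem v).mp hvW' i hi)
    · -- codisjoint
      rw [codisjoint_iff, eq_top_iff]
      intro v _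
      have hv : v = ∑ i : Fin 2, Qm.mulVec (Pi.single i ((Pm.mulVec v) i)) := by
        apply hinj'
        rw [Matrix.mulVec_sum]
        simp only [hfwd]
        ext l
        fin_cases l <;> simp
      rw [hv]
      refine Submodule.sum_mem _ fun i _ => ?_
      by_cases hi : In i
      · obtain ⟨c, hc, hcW⟩ := hi
        apply Submodule.mem_sup_left
        have : Qm.mulVec (Pi.single i ((Pm.mulVec v) i)) =
            ((Pm.mulVec v) i / c) • Qm.mulVec (Pi.single i c) := by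
          rw [← Matrix.mulVec_smul, ← Pi.single_smul, smul_eq_mul, div_mul_cancel₀ _ hc]
        rw [this]
        exact W.smul_mem _ hcW
      · apply Submodule.mem_sup_right
        rw [hW'mem]
        intro l hl
        rw [hfwd]
        have : l ≠ i := fun h => hi (h ▸ hl)
        exact Pi.single_eq_of_ne this _

/-- The DS4 output shape implies semisimplicity in the form consumed by DS5. -/
theorem semisimple_of_irreducible_or_diag (ρ : Γ →* GL (Fin 2) k)
    (h : (Deformation.matrixRepresentation ρ).IsIrreducible ∨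
      ∃ P : GL (Fin 2) k, ∀ g : Γ,
        ((P * ρ g * P⁻¹ : GL (Fin 2) k) : Matrix (Fin 2) (Fin 2) k).IsDiag)
    (W : Submodule k (Fin 2 → k))
    (hW : ∀ g : Γ, ∀ v ∈ W, ((ρ g : GL (Fin 2) k) : Matrix (Fin 2) (Fin 2) k).mulVec v ∈ W) :
    ∃ W' : Submodule k (Fin 2 → k),
      (∀ g : Γ, ∀ v ∈ W', ((ρ g : GL (Fin 2) k) : Matrix (Fin 2) (Fin 2) k).mulVec v ∈ W') ∧
        IsCompl W W' := by
  rcases h with hirr | ⟨P, hP⟩
  · rcases eq_bot_or_eq_top_of_isIrreducible ρ hirr W hW with rfl | rfl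
    · exact ⟨⊤, fun _ _ _ => Submodule.mem_top, isCompl_bot_top⟩
    · exact ⟨⊥, fun g v hv => by
        rw [Submodule.mem_bot] at hv ⊢
        rw [hv, Matrix.mulVec_zero], isCompl_top_bot⟩
  · refine exists_isCompl_of_isDiag (fun g => ((ρ g : GL (Fin 2) k) : Matrix (Fin 2) (Fin 2) k))
      (P : Matrix (Fin 2) (Fin 2) k) ((P⁻¹ : GL (Fin 2) k) : Matrix (Fin 2) (Fin 2) k) ?_ ?_ ?_ W hW
    · rw [← Units.val_mul, inv_mul_cancel, Units.val_one]
    · rw [← Units.val_mul, mul_inv_cancel, Units.val_one]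
    · intro g
      have := hP g
      simpa [Units.val_mul] using this

end Semisimple

/-! ## Glue 4: uniformly bounded images (DS3 ∧ ChebDens ∧ DS5 = DS5-ASM) -/

theorem normal_Qb : Normal ℚ (AlgebraicClosure ℚ) :=
  have : IsAlgClosure ℚ (AlgebraicClosure ℚ) := AlgebraicClosure.instIsAlgClosure ℚ
  IsAlgClosure.normal ℚ (AlgebraicClosure ℚ)

theorem exists_galois_ge (L₀ : IntermediateField ℚ (AlgebraicClosure ℚ)) [FiniteDimensional ℚ L₀] :
    ∃ L : IntermediateField ℚ (AlgebraicClosure ℚ),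
      FiniteDimensional ℚ L ∧ IsGalois ℚ L ∧ L₀ ≤ L := by
  have := normal_Qb
  have h2 : Normal ℚ (IntermediateField.normalClosure ℚ (↥L₀) (AlgebraicClosure ℚ)) :=
    normalClosure.normal ℚ L₀ (AlgebraicClosure ℚ)
  exact ⟨IntermediateField.normalClosure ℚ L₀ (AlgebraicClosure ℚ),
    normalClosure.is_finiteDimensional ℚ L₀ (AlgebraicClosure ℚ), IsGalois.mk,
    IntermediateField.le_normalClosure L₀⟩

/-- A finite-level homomorphism factors through `Gal(L/ℚ)` for every finite Galois `L`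
containing a level field. -/
theorem exists_factor_restrict {M : Type} [Group M] (r : Γℚ →* M)
    (L₀ L : IntermediateField ℚ (AlgebraicClosure ℚ)) [Normal ℚ L] (hle : L₀ ≤ L)
    (h1 : ∀ σ : Γℚ, (∀ x ∈ L₀, σ x = x) → r σ = 1) :
    ∃ rt : (L ≃ₐ[ℚ] L) →* M, ∀ σ : Γℚ, rt (AlgEquiv.restrictNormalHom L σ) = r σ := by
  have := normal_Qb
  have hsurj : Function.Surjective (AlgEquiv.restrictNormalHom (F := ℚ)
      (K₁ := AlgebraicClosure ℚ) L) := AlgEquiv.restrictNormalHom_surjective (AlgebraicClosure ℚ)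
  have hker : (AlgEquiv.restrictNormalHom (F := ℚ) (K₁ := AlgebraicClosure ℚ) L).ker ≤ r.ker := by
    intro σ hσ
    rw [MonoidHom.mem_ker] at hσ ⊢
    apply h1
    intro x hx
    have h2 := AlgEquiv.restrictNormal_commutes σ L ⟨x, hle hx⟩
    have h3 : (AlgEquiv.restrictNormalHom (F := ℚ) (K₁ := AlgebraicClosure ℚ) L σ) ⟨x, hle hx⟩ =
        ⟨x, hle hx⟩ := by rw [hσ]; rfl
    have h4 : σ.restrictNormal L ⟨x, hle hx⟩ = ⟨x, hle hx⟩ := h3
    rw [h4] at h2
    exact h2.symm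
  refine ⟨(AlgEquiv.restrictNormalHom (F := ℚ) (K₁ := AlgebraicClosure ℚ) L).liftOfSurjective hsurj
      ⟨r, hker⟩, fun σ => ?_⟩
  exact MonoidHom.liftOfRightInverse_comp_apply _ _ _ ⟨r, hker⟩ σ

/-- fibres of a surjective homomorphism of finite groups: `|f⁻¹ C| · |H| = |C| · |G|`. -/
theorem card_preimage_mul_card {G H : Type} [Group G] [Group H] [Finite G] [Finite H]
    (f : G →* H) (hf : Function.Surjective f) (C : Set H) :
    Nat.card (f ⁻¹' C) * Nat.card H = Nat.card C * Nat.card G := by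
  classical
  have key : ∀ D : Set H, Nat.card (f ⁻¹' D) = Nat.card D * Nat.card f.ker := by
    intro D
    rw [← Nat.card_prod]
    refine Nat.card_congr
      { toFun := fun g => (⟨f g.1, g.2⟩, ⟨(Function.surjInv hf (f g.1))⁻¹ * g.1, by
          rw [MonoidHom.mem_ker, map_mul, map_inv, Function.surjInv_eq hf, inv_mul_cancel]⟩)
        invFun := fun p => ⟨Function.surjInv hf p.1.1 * p.2.1, by
          show f (Function.surjInv hf p.1.1 * p.2.1) ∈ D
          rw [map_mul, Function.surjInv_eq hf, MonoidHom.mem_ker.mp p.2.2, mul_one]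
          exact p.1.2⟩
        left_inv := fun g => by
          apply Subtype.ext
          simp
        right_inv := fun p => by
          have h1 : f (Function.surjInv hf p.1.1 * p.2.1) = p.1.1 := by
            rw [map_mul, Function.surjInv_eq hf, MonoidHom.mem_ker.mp p.2.2, mul_one]
          refine Prod.ext (Subtype.ext h1) (Subtype.ext ?_)
          show (Function.surjInv hf (f (Function.surjInv hf p.1.1 * p.2.1)))⁻¹ *
            (Function.surjInv hf p.1.1 * p.2.1) = p.2.1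
          rw [h1, inv_mul_cancel_left] }
  have h1 := key C
  have h2 := key Set.univ
  rw [Set.preimage_univ, Nat.card_congr (Equiv.Set.univ G), Nat.card_congr (Equiv.Set.univ H)] at h2
  rw [h1, h2]
  ring

/-- **Bounded images** (DS3 ∧ CHEB-DENS ∧ DS5). -/
theorem card_range_le (hC : ChebDens) (h5 : DS5) {N : ℕ} [NeZero N] {a e : ℕ → Zbar}
    {Y : Finset ℂ} {C₁ : ℝ}
    (hY : ∀ s : ℝ, 1 < s → s ≤ 2 →
      ∀ F : Finset ℕ, (∀ p ∈ F, p.Prime ∧ ¬ p ∣ N ∧ ((a p : Zbar) : ℂ) ∉ Y) →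
        ∑ p ∈ F, 1 / (p : ℝ) ^ s ≤ 1 / 8 * Real.log (1 / (s - 1)) + C₁)
    {ℓ : ℕ} (hℓp : ℓ.Prime) (hℓ : 2 < ℓ) {k : Type} [Field k] [CharP k ℓ]
    {φ : Zbar →+* k} {ρ : Γℚ →* GL (Fin 2) k} (h : IsModLRep N a e ℓ φ ρ) :
    Nat.card ρ.range ≤ 2 * Y.card ^ 4 := by
  classical
  -- finiteness of the image
  have hfin : (Set.range ρ).Finite := finite_range_of_finiteLevel ρ h.finiteLevel
  have : Finite ρ.range := by
    have : Finite (Set.range ρ) := hfin.to_subtype
    exact this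
  -- the value set in characteristic ℓ
  let Yint : Finset Zbar :=
    Y.preimage (fun x : Zbar => (x : ℂ)) (Subtype.coe_injective.injOn)
  let T : Finset k := Yint.image φ
  have hTcard : T.card ≤ Y.card := by
    refine (Finset.card_image_le).trans ?_
    refine Finset.card_le_card_of_injOn (fun x : Zbar => (x : ℂ)) ?_
      (Subtype.coe_injective.injOn)
    intro x hx
    simpa [Yint] using hx
  -- a finite Galois extension through which `ρ` factors
  obtain ⟨L₀, hL₀, h1⟩ := h.finiteLevel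
  have : FiniteDimensional ℚ L₀ := hL₀
  obtain ⟨L, hLfin, hLgal, hle⟩ := exists_galois_ge L₀
  obtain ⟨rt, hrt⟩ := exists_factor_restrict ρ.rangeRestrict L₀ L hle
    (fun σ hσ => Subtype.ext (h1 σ hσ))
  have hrtsurj : Function.Surjective rt := by
    intro g
    obtain ⟨σ, rfl⟩ := ρ.rangeRestrict_surjective g
    exact ⟨_, hrt σ⟩
  -- the bad sets
  let C : Set ρ.range := {g | ((g : GL (Fin 2) k) : Matrix (Fin 2) (Fin 2) k).trace ∉ T}
  have hCconj : ∀ x g : ρ.range, g ∈ C → x * g * x⁻¹ ∈ C := by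
    intro x g hg
    show ((((x * g * x⁻¹ : ρ.range) : GL (Fin 2) k) : Matrix (Fin 2) (Fin 2) k).trace ∉ T)
    have : (((x * g * x⁻¹ : ρ.range) : GL (Fin 2) k) : Matrix (Fin 2) (Fin 2) k) =
        ((x : GL (Fin 2) k) : Matrix (Fin 2) (Fin 2) k) *
          ((g : GL (Fin 2) k) : Matrix (Fin 2) (Fin 2) k) *
          (((x : GL (Fin 2) k)⁻¹ : GL (Fin 2) k) : Matrix (Fin 2) (Fin 2) k) := by
      simp
    rw [this, Matrix.trace_units_conj]
    exact hg
  let B : Set (L ≃ₐ[ℚ] L) := rt ⁻¹' C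
  have hBconj : ∀ g x : L ≃ₐ[ℚ] L, x ∈ B → g * x * g⁻¹ ∈ B := by
    intro g x hx
    show rt (g * x * g⁻¹) ∈ C
    rw [map_mul, map_mul, map_inv]
    exact hCconj (rt g) (rt x) hx
  have hNℓ : N * ℓ ≠ 0 := Nat.mul_ne_zero (NeZero.ne N) hℓp.ne_zero
  -- density comparison
  have hdens : (Nat.card B : ℝ) / (Nat.card (L ≃ₐ[ℚ] L) : ℝ) ≤ 1 / 8 := by
    refine le_of_forall_pos_le_add fun δ hδ => ?_
    obtain ⟨K₀, hK₀⟩ := hC L B hBconj δ hδ (N * ℓ).primeFactors
    have hkey : (Nat.card B : ℝ) / (Nat.card (L ≃ₐ[ℚ] L) : ℝ) - δ ≤ 1 / 8 := by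
      apply le_of_forall_log (B := C₁ + K₀)
      intro s hs1 hs2
      obtain ⟨F, hF, hFle⟩ := hK₀ s hs1 hs2
      have hFexc : ∀ p ∈ F, p.Prime ∧ ¬ p ∣ N ∧ ((a p : Zbar) : ℂ) ∉ Y := by
        intro p hpF
        obtain ⟨hp, hpT, hfrob⟩ := hF p hpF
        have hpd : ¬ p ∣ N * ℓ := fun hd => hpT (Nat.mem_primeFactors.mpr ⟨hp, hd, hNℓ⟩)
        have hpN : ¬ p ∣ N := fun hpN => hpd (Dvd.dvd.mul_right hpN ℓ)
        have hpℓ : p ≠ ℓ := fun hpℓ => hpd (hpℓ ▸ Dvd.intro_left N rfl)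
        refine ⟨hp, hpN, fun haY => ?_⟩
        obtain ⟨A, hA, σ, hσ⟩ := Fermat.Agent.S54.FrobExists.exists_isFrobeniusAt p hp
        have hB' : rt (AlgEquiv.restrictNormalHom L σ) ∈ C := hfrob A hA σ hσ
        rw [hrt σ] at hB'
        obtain ⟨htr, -⟩ := (h.locally p hp hpN hpℓ A hA).2 σ hσ
        apply hB'
        show ((ρ σ : GL (Fin 2) k) : Matrix (Fin 2) (Fin 2) k).trace ∈ T
        rw [htr]
        refine Finset.mem_image_of_mem φ ?_
        rw [Finset.mem_preimage]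
        exact haY
      have := hY s hs1 hs2 F hFexc
      linarith
    linarith
  -- from `B` to `C`
  have hcount : Nat.card B * Nat.card ρ.range = Nat.card C * Nat.card (L ≃ₐ[ℚ] L) :=
    card_preimage_mul_card rt hrtsurj C
  have hGpos : 0 < Nat.card (L ≃ₐ[ℚ] L) := Nat.card_pos
  have h8B : 8 * Nat.card B ≤ Nat.card (L ≃ₐ[ℚ] L) := by
    have hpos : (0 : ℝ) < (Nat.card (L ≃ₐ[ℚ] L) : ℝ) := by exact_mod_cast hGpos
    rw [div_le_iff₀ hpos] at hdens
    have : (8 : ℝ) * (Nat.card B : ℝ) ≤ (Nat.card (L ≃ₐ[ℚ] L) : ℝ) := by linarith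
    exact_mod_cast this
  have h8 : 8 * C.ncard ≤ Nat.card ρ.range := by
    rw [← Nat.card_coe_set_eq]
    have : 8 * Nat.card C * Nat.card (L ≃ₐ[ℚ] L) ≤ Nat.card ρ.range * Nat.card (L ≃ₐ[ℚ] L) := by
      calc 8 * Nat.card C * Nat.card (L ≃ₐ[ℚ] L) = 8 * (Nat.card C * Nat.card (L ≃ₐ[ℚ] L)) := by ring
        _ = 8 * (Nat.card B * Nat.card ρ.range) := by rw [hcount]
        _ = (8 * Nat.card B) * Nat.card ρ.range := by ring
        _ ≤ Nat.card (L ≃ₐ[ℚ] L) * Nat.card ρ.range := Nat.mul_le_mul_right _ h8B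
        _ = Nat.card ρ.range * Nat.card (L ≃ₐ[ℚ] L) := by ring
    exact Nat.le_of_mul_le_mul_right this hGpos
  -- the good elements are at least `7/8` of the image
  have hcompl : {g : ρ.range | ((g : GL (Fin 2) k) : Matrix (Fin 2) (Fin 2) k).trace ∈ T} = Cᶜ := by
    ext g
    simp [C]
  have hgood : 7 * Nat.card ρ.range ≤
      8 * Nat.card {g : ρ.range // ((g : GL (Fin 2) k) : Matrix (Fin 2) (Fin 2) k).trace ∈ T} := by
    have e1 : Nat.card {g : ρ.range //
        ((g : GL (Fin 2) k) : Matrix (Fin 2) (Fin 2) k).trace ∈ T} = (Cᶜ).ncard := by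
      rw [← hcompl]
      exact Nat.card_coe_set_eq _
    have e2 : C.ncard + (Cᶜ).ncard = Nat.card ρ.range :=
      Set.ncard_add_ncard_compl C (Set.toFinite C) (Set.toFinite Cᶜ)
    rw [e1]
    omega
  -- `2 ≠ 0` in characteristic `ℓ > 2`
  have h2 : (2 : k) ≠ 0 := by
    intro h0
    have h0' : ((2 : ℕ) : k) = 0 := by exact_mod_cast h0
    rw [CharP.cast_eq_zero_iff k ℓ] at h0'
    exact absurd (Nat.le_of_dvd (by norm_num) h0') (by omega)
  -- semisimplicity in the form consumed by DS5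
  have hss : ∀ W : Submodule k (Fin 2 → k),
      (∀ g ∈ ρ.range, ∀ v ∈ W, ((g : GL (Fin 2) k) : Matrix (Fin 2) (Fin 2) k).mulVec v ∈ W) →
      ∃ W' : Submodule k (Fin 2 → k),
        (∀ g ∈ ρ.range, ∀ v ∈ W',
          ((g : GL (Fin 2) k) : Matrix (Fin 2) (Fin 2) k).mulVec v ∈ W') ∧ IsCompl W W' := by
    intro W hW
    obtain ⟨W', hW', hc⟩ := semisimple_of_irreducible_or_diag ρ h.semisimple W
      (fun σ v hv => hW (ρ σ) ⟨σ, rfl⟩ v hv)
    refine ⟨W', ?_, hc⟩
    rintro _ ⟨σ, rfl⟩ v hv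
    exact hW' σ v hv
  have hfinal := h5 k h2 ρ.range hss T hgood
  refine hfinal.trans ?_
  exact Nat.mul_le_mul_left 2 (Nat.pow_le_pow_left hTcard 4)

/-! ## The assembly -/

/-- Values of Dirichlet characters are algebraic integers. -/
theorem isIntegral_dirichlet (N : ℕ) [NeZero N] (ε : DirichletCharacter ℂ N) (x : ZMod N) :
    IsIntegral ℤ (ε x) := by
  by_cases hx : IsUnit x
  · obtain ⟨u, rfl⟩ := hx
    have h1 : (ε (u : ZMod N)) ^ (Fintype.card (ZMod N)ˣ) = 1 := by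
      rw [← map_pow, ← Units.val_pow_eq_pow_val, pow_card_eq_one, Units.val_one, map_one]
    exact IsIntegral.of_pow (Fintype.card_pos) (h1 ▸ isIntegral_one)
  · rw [MulChar.map_nonunit ε hx]
    exact isIntegral_zero

/-- **S48 from the kernels** (the conclusion is the frozen statement verbatim). -/
theorem s48_of_kernels (h1a : DS1a) (h1b : DS1b) (h2 : DS2) (h3 : DS3) (h4 : DS4) (hC : ChebDens)
    (h5 : DS5) (h6 : DS6) (h7 : DS7)
    (N : ℕ) [NeZero N] (ε : DirichletCharacter ℂ N) (f : CuspForm (Gamma1 N) 1)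
    (hf₁ : ModularFormClass.qCoeff f 1 = 1)
    (hT : ∀ p : ℕ, p.Prime → ¬ p ∣ N → ∀ n : ℕ,
        ModularFormClass.qCoeff f (p * n) +
            ε (p : ZMod N) * (if p ∣ n then ModularFormClass.qCoeff f (n / p) else 0) =
          ModularFormClass.qCoeff f p * ModularFormClass.qCoeff f n) :
    ∃ ρ : Γℚ →* GL (Fin 2) ℂ, GaloisFactorsThroughFiniteLevel ρ ∧
      (Deformation.matrixRepresentation ρ).IsIrreducible ∧
      ∀ p : ℕ, p.Prime → ¬ p ∣ N →
        ∀ A : ValuationSubring (AlgebraicClosure ℚ), A.LiesOverPrime p →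
          (∀ σ ∈ A.inertiaSubgroupIn ℚ, ρ σ = 1) ∧
          ∀ σ : Γℚ, A.IsFrobeniusAt σ p →
            ((ρ σ : GL (Fin 2) ℂ) : Matrix (Fin 2) (Fin 2) ℂ).trace = ModularFormClass.qCoeff f p ∧
            ((ρ σ : GL (Fin 2) ℂ) : Matrix (Fin 2) (Fin 2) ℂ).det = ε (p : ZMod N) := by
  classical
  -- the eigensystem, as a complex sequence and as a sequence of algebraic integers
  have hsys : IsW1Sys N ε (fun n => qCoeff f n) := ⟨f, hf₁, hT, fun _ _ _ => rfl⟩
  have hint := (h1b N ε _ hsys).1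
  let a : ℕ → Zbar := fun n => if h : IsIntegral ℤ (qCoeff f n) then ⟨qCoeff f n, h⟩ else 0
  let e : ℕ → Zbar := fun n => ⟨ε (n : ZMod N), isIntegral_dirichlet N ε _⟩
  have ha : ∀ p : ℕ, p.Prime → ¬ p ∣ N → ((a p : Zbar) : ℂ) = qCoeff f p := by
    intro p hp hpN
    simp only [a, dif_pos (hint p hp hpN)]
  have he : ∀ p : ℕ, ((e p : Zbar) : ℂ) = ε (p : ZMod N) := fun _ => rfl
  have hsysZ : IsW1Sys N ε (fun n => ((a n : Zbar) : ℂ)) :=
    ⟨f, hf₁, hT, fun p hp hpN => (ha p hp hpN).symm⟩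
  -- the finite value set
  obtain ⟨Y, C₁, hY⟩ := h3 h1a h1b h2 N ε _ hsysZ (1 / 8) (by norm_num)
  -- the mod-ℓ representations and the uniform bound on their images
  obtain ⟨L, hL, hLrep⟩ := h4 N ε a e hsysZ he
  have hL' : (L \ {ℓ | ℓ ≤ 2}).Infinite := hL.sdiff (Set.finite_le_nat 2)
  obtain ⟨ρ, hfin, hatt⟩ := h6 N (2 * Y.card ^ 4) a e (L \ {ℓ | ℓ ≤ 2}) hL' (by
    rintro ℓ ⟨hℓL, hℓ2⟩
    obtain ⟨hℓp, k, _, _, φ, ρl, hρl⟩ := hLrep ℓ hℓL
    have hℓ2' : 2 < ℓ := not_le.mp hℓ2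
    have hcard := card_range_le hC h5 hY hℓp hℓ2' hρl
    have hfinr : (Set.range ρl).Finite := finite_range_of_finiteLevel ρl hρl.finiteLevel
    have : Finite ρl.range := by
      have : Finite (Set.range ρl) := hfinr.to_subtype
      exact this
    refine ⟨hℓp, k, inferInstance, inferInstance, φ, ρl, hρl.finiteLevel, fun g => ?_, hρl.locally⟩
    refine ⟨orderOf (⟨ρl g, g, rfl⟩ : ρl.range), orderOf_pos _,
      (orderOf_le_card).trans hcard, ?_⟩
    have := pow_orderOf_eq_one (⟨ρl g, g, rfl⟩ : ρl.range)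
    exact congrArg Subtype.val this)
  -- irreducibility and the final repackaging
  have hatt' : IsAttached N ε (fun n => qCoeff f n) ρ := by
    intro p hp hpN A hA
    obtain ⟨hin, hfr⟩ := hatt p hp hpN A hA
    refine ⟨hin, fun σ hσ => ?_⟩
    obtain ⟨h1, h2⟩ := hfr σ hσ
    exact ⟨h1.trans (ha p hp hpN), h2.trans (he p)⟩
  -- the Rankin bound for every conjugate system (DS1a + DS2)
  have hbound : ∀ τ : ℂ ≃+* ℂ, ∃ C : ℝ, ∀ s : ℝ, 1 < s → s ≤ 2 → ∀ F : Finset ℕ,
      (∀ p ∈ F, p.Prime ∧ ¬ p ∣ N) →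
        ∑ p ∈ F, ‖τ (qCoeff f p)‖ ^ 2 / (p : ℝ) ^ s ≤ Real.log (1 / (s - 1)) + C := by
    intro τ
    obtain ⟨C, hC'⟩ := h2 N _ _ (h1a N ε _ hsys τ)
    refine ⟨C, fun s hs1 hs2 F hF => ?_⟩
    have := hC' s hs1 hs2 F hF
    refine le_trans (le_of_eq ?_) this
    refine Finset.sum_congr rfl fun p _ => ?_
    rw [Real.rpow_neg (Nat.cast_nonneg p), div_eq_mul_inv]
  exact ⟨ρ, hfin, h7 N (NeZero.ne N) _ ρ hfin
    (fun p hp hpN A hA σ hσ => ((hatt' p hp hpN A hA).2 σ hσ).1) hbound, hatt'⟩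

end Fermat.Agent.DS.S48Skeleton
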