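/-
PROGRAMME III (S48): WIRING of the owners' green theorems into the kernel Props of
`DS/S48Skeleton.lean` (helper4).  Each `theorem dsX : DSX` below is a literal-compatibility check;
the final `Fermat/Agent/S48.lean` is `s48_of_kernels ds1a ds1b ds2 ds3 ds4 chebDens ds5 ds6 ds7`.
-/
import Fermat.Agent.DS.S48Skeleton
import Fermat.Agent.DS.MeanBound.Main
import Fermat.Agent.DS.DS5.TraceBound
import Fermat.Agent.DS.Lift.Main
import Fermat.Agent.DS.DS1.Closed
import Fermat.Agent.DS.Density.DS3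
import Fermat.Agent.DS.ChebDens.Skeleton
import Fermat.Agent.DS.Irred.Bridge

set_option autoImplicit false
open CongruenceSubgroup
open scoped MatrixGroups
local notation "Γℚ" => (AlgebraicClosure ℚ ≃ₐ[ℚ] AlgebraicClosure ℚ)
local notation "Zbar" => (integralClosure ℤ ℂ)

namespace Fermat.Agent.DS.S48Wiring

open Fermat.Agent.DS.S48Skeleton ModularFormClass

/-- DS2 from helper14's `rankin_mean_bound`. -/
theorem ds2 : DS2 := by
  intro N _ ε a ⟨f, hf₁, hT, ha⟩
  obtain ⟨C, hC⟩ := Fermat.Agent.DS.MeanBound.rankin_mean_bound N ε f hf₁ hT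
  refine ⟨C, fun s hs1 hs2 P hP => ?_⟩
  have := hC s hs1 hs2 P hP
  refine le_trans (le_of_eq ?_) this
  refine Finset.sum_congr rfl fun p hp => ?_
  rw [ha p (hP p hp).1 (hP p hp).2]

/-- DS5 from helper21's `card_le_of_trace_mem`. -/
theorem ds5 : DS5 := by
  intro F _ h2 G _ hss T hT
  exact Fermat.Agent.DS.DS5.card_le_of_trace_mem h2 G hss T hT

/-- DS6 from helper7's `exists_complex_rep`. -/
theorem ds6 : DS6 := by
  intro N A _ a e L hL hrep
  exact Fermat.Agent.DS.Lift.exists_complex_rep N A a e L hL (fun l hl => hrep l hl)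

/-- DS1a, DS1b from helper22's `DS1/Closed`. -/
theorem ds1a : DS1a := Fermat.Agent.DS.DS1.ds1a_closed

theorem ds1b : DS1b := Fermat.Agent.DS.DS1.ds1b_closed

/-- DS3 from helper15's `Density/DS3`. -/
theorem ds3 : DS3 := Fermat.Agent.DS.Density.ds3

/-- ChebDens from helper15's `ChebDens/Skeleton`. -/
theorem chebDens : ChebDens := Fermat.Agent.DS.ChebDens.chebDens

/-- DS7 from helper11's `Irred/Bridge`. -/
theorem ds7 : DS7 := Fermat.Agent.DS.Irred.ds7

/-- **S48 from DS4 alone**: eight of the nine kernels are theorems; the frozen statement follows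
from the existence of the mod-`ℓ` representations. -/
theorem s48_of_ds4 (h4 : DS4)
    (N : ℕ) [NeZero N] (ε : DirichletCharacter ℂ N) (f : CuspForm (Gamma1 N) 1)
    (hf₁ : ModularFormClass.qCoeff f 1 = 1)
    (hT : ∀ p : ℕ, p.Prime → ¬ p ∣ N → ∀ n : ℕ,
        ModularFormClass.qCoeff f (p * n) +
            ε (p : ZMod N) * (if p ∣ n then ModularFormClass.qCoeff f (n / p) else 0) =
          ModularFormClass.qCoeff f p * ModularFormClass.qCoeff f n) :
    ∃ ρ : Γℚ →* GL (Fin 2) ℂ, GaloisFactorsThroughFiniteLevel ρ ∧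
      (Deformation.matrixRepresentation ρ).IsIrreducible ∧
      ∀ p : ℕ, p.Prime → ¬ p ∣ N →
        ∀ A : ValuationSubring (AlgebraicClosure ℚ), A.LiesOverPrime p →
          (∀ σ ∈ A.inertiaSubgroupIn ℚ, ρ σ = 1) ∧
          ∀ σ : Γℚ, A.IsFrobeniusAt σ p →
            ((ρ σ : GL (Fin 2) ℂ) : Matrix (Fin 2) (Fin 2) ℂ).trace = ModularFormClass.qCoeff f p ∧
            ((ρ σ : GL (Fin 2) ℂ) : Matrix (Fin 2) (Fin 2) ℂ).det = ε (p : ZMod N) :=
  s48_of_kernels ds1a ds1b ds2 ds3 h4 chebDens ds5 ds6 ds7 N ε f hf₁ hT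

end Fermat.Agent.DS.S48Wiring
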