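/-
PROGRAMME III (S48, Deligne–Serre) — the X1-OUT SKELETON (helper4, routing III-4).

The top seams of the `X₁(M)`-port as NAMED kernel Props, and the PROVED glue

  `x1Out_of_kernels : KResCore → (∀ M ≥ 5, KStab M ∧ KData M) → X1OutM`,

where `X1OutM` is helper28's literal `DS4.X1Out` (`DS/DS4/Assembly.lean`) with the agreed extra
hypothesis `5 ≤ M` (board #2029).

CONVENTIONS ARE DECIDED HERE (C5, "c ∈ {id, conj}"): the algebraic operators `S i` on `JOne M`, the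
lattice operators `T i` on `LamOf (Gamma1 M)` and their complexifications `Tc i` on
`Hom(Γ₁(M), ℂ)` are EXISTENTIALLY quantified in `KData`; the only normalisation is that the period
homomorphism of the eigenvector `v` has `Tc`-eigenvalues `b p` (at `inl p`) and `ψ d` (at `inr d`).
The Eichler–Shimura relation is accepted in either of its two shapes
  (mu)  `σ²x − S_p σx + p·S_⟨p⟩ x = 0`      (et)  `S_⟨p⟩ σ²x − S_p σx + p·x = 0`
(`KES false` / `KES true`); in the (et) case the glue twists the Galois action on `J[𝔪]` by the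
character `δ ∘ cycloM M`, so no complex-conjugate form is needed.
-/
import Mathlib
import Fermat.Prelude.Def_GaloisRep_Residual
import Fermat.Agent.Res.CycloModP
import Fermat.Agent.DS.DS4.Defs
import Fermat.Agent.DS.X1.Defs
import Fermat.Agent.DS.X1Res.EigenPackage
import Fermat.Agent.DS.X1Res.CycloModM

set_option autoImplicit false
set_option linter.style.haveILetI false
set_option linter.unusedSectionVars false

open scoped MatrixGroups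
open CongruenceSubgroup ModularFormClass Polynomial
open ModularCurve.Period

noncomputable section

namespace Fermat.Agent.DS.X1OutSkeleton

open Fermat.Agent.DS.Kum Fermat.Agent.DS.X1Res Fermat.Agent.DS.DS4 Fermat.Agent.DS.X1

local notation "Qb" => AlgebraicClosure ℚ
local notation "GQ" => (AlgebraicClosure ℚ ≃ₐ[ℚ] AlgebraicClosure ℚ)
local notation "Zbar" => integralClosure ℤ ℂ

/-! ### The target -/

/-- **X1-OUT**: helper28's literal `DS4.X1Out` with the agreed hypothesis `5 ≤ M`. -/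
def X1OutM : Prop :=
  ∀ (M : ℕ) [NeZero M], 5 ≤ M → ∀ (ψ : DirichletCharacter ℂ M) (v : CuspForm (Gamma1 M) 2)
    (b e : ℕ → Zbar), v ≠ 0 → IsNeben 2 ψ v → (∀ p : ℕ, (e p : ℂ) = ψ (p : ZMod M)) →
    HeckeRel M 2 ψ (fun n => qCoeff v n) (fun n => (b n : ℂ)) →
    ∀ (ℓ : ℕ), ℓ.Prime → ∀ (k : Type) [Field k] [CharP k ℓ] (φ : Zbar →+* k),
    ∃ ρ : ResidualGaloisRep k,
      (∀ p : ℕ, p.Prime → ¬ p ∣ M * ℓ → ρ.IsUnramifiedAt p) ∧
      ∀ p : ℕ, p.Prime → ¬ p ∣ M * ℓ →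
        ∀ A : ValuationSubring (AlgebraicClosure ℚ), A.LiesOverPrime p →
          ∀ σ : GQ, A.IsFrobeniusAt σ p →
            LinearMap.charpoly (ρ.ρ σ) = X ^ 2 - C (φ (b p)) * X + C (φ (e p) * (p : k))

/-! ### The abstract core (K-RESB) -/

/-- **(K-RESB)**, owner helper18: main's `Res/S29Core.exists_residualRep_of_core` with an ABSTRACT
determinant character `d` (finite level, unramified outside the bad number `B`). -/
def KResCore : Prop :=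
  ∀ (B : ℕ) (κ : Type) [Field κ] [Finite κ] (k : Type) [Field k] (ι : κ →+* k)
    (T : Type) [AddCommGroup T] [Module κ T] (R : GQ →* Module.End κ T)
    (c : Nat.Primes → κ) (d : GQ →* κˣ), B ≠ 0 →
    (∃ L : IntermediateField ℚ Qb, FiniteDimensional ℚ L ∧
      ∀ σ : GQ, (∀ a ∈ L, σ a = a) → d σ = 1) →
    (∀ ℓ : ℕ, ℓ.Prime → ¬ ℓ ∣ B → ∀ A : ValuationSubring Qb, A.LiesOverPrime ℓ →
      ∀ σ ∈ A.inertiaSubgroupIn ℚ, d σ = 1) →
    ∀ x : T, x ≠ 0 →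
    (∃ L : IntermediateField ℚ Qb, FiniteDimensional ℚ L ∧
      ∀ σ : GQ, (∀ a ∈ L, σ a = a) → R σ x = x) →
    (∀ ℓ : ℕ, ℓ.Prime → ¬ ℓ ∣ B → ∀ A : ValuationSubring Qb, A.LiesOverPrime ℓ →
      ∀ σ ∈ A.inertiaSubgroupIn ℚ, ∀ y : T, R σ y = y) →
    (∀ ℓ : ℕ, (hℓ : ℓ.Prime) → ¬ ℓ ∣ B → ∀ A : ValuationSubring Qb, A.LiesOverPrime ℓ →
      ∀ σ : GQ, A.IsFrobeniusAt σ ℓ → ∀ y : T,
        R σ (R σ y) - c ⟨ℓ, hℓ⟩ • R σ y + ((d σ : κˣ) : κ) • y = 0) →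
    ∃ ρ : ResidualGaloisRep k,
      (∀ ℓ : ℕ, (hℓ : ℓ.Prime) → ¬ ℓ ∣ B → ∀ A : ValuationSubring Qb, A.LiesOverPrime ℓ →
        ∀ σ : GQ, A.IsFrobeniusAt σ ℓ →
          LinearMap.charpoly (ρ.ρ σ) =
            X ^ 2 - C (ι (c ⟨ℓ, hℓ⟩)) * X + C (ι ((d σ : κˣ) : κ))) ∧
      ∀ ℓ : ℕ, ℓ.Prime → ¬ ℓ ∣ B → ρ.IsUnramifiedAt ℓ

/-! ### The kernels at level `M` -/

/-- the index type of the anemic Hecke algebra of level `M`: `T_p` (`p ∤ M`) and `⟨d⟩`. -/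
abbrev HeckeIdx (M : ℕ) : Type := {p : Nat.Primes // ¬ (p : ℕ) ∣ M} ⊕ (ZMod M)ˣ

/-- the index of `T_p`. -/
def idxT {M : ℕ} {p : ℕ} (hp : p.Prime) (hpM : ¬ p ∣ M) : HeckeIdx M := Sum.inl ⟨⟨p, hp⟩, hpM⟩

/-- the index of `⟨p⟩`. -/
def idxD {M : ℕ} {p : ℕ} (hp : p.Prime) (hpM : ¬ p ∣ M) : HeckeIdx M :=
  Sum.inr (ZMod.unitOfCoprime p ((Nat.Prime.coprime_iff_not_dvd hp).mpr hpM))

section Kernels

variable (M : ℕ) [NeZero M]

/-- complex-valued homomorphisms of `Γ₁(M)`. -/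
abbrev HomC : Type := Additive ↥(Gamma1 M) →+ ℂ

variable (S : HeckeIdx M → Module.End ℤ (JOne M))
  (T : HeckeIdx M → Module.End ℤ ↥(LamOf (Gamma1 M)))
  (Tc : HeckeIdx M → (HomC M →ₗ[ℂ] HomC M))

/-- **(K-COMM)** (X1-HECKE): the algebraic `T_p`, `⟨d⟩` on `J₁(M)(ℚ̄)` commute. -/
def KComm : Prop := ∀ i j, Commute (S i) (S j)

/-- **(K-GAL)** (X1-HECKE): they commute with the Galois action. -/
def KGal : Prop := ∀ (σ : GQ) (i : HeckeIdx M) (x : JOne M), S i (σ • x) = σ • S i x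

/-- **(K-KUM)** (X1-KUM + X1-RED-SPEC char. 0): Kummer-type maps `Λ → J₁(M)(ℚ̄)` with kernel
`m Λ`, intertwining the lattice operators with the algebraic ones. -/
def KKum : Prop :=
  ∀ m : ℕ, 0 < m → ∃ ρ : ↥(LamOf (Gamma1 M)) →+ JOne M,
    (∀ x, ρ x = 0 ↔ ∃ y : ↥(LamOf (Gamma1 M)), x = m • y) ∧ ∀ i x, ρ (T i x) = S i (ρ x)

/-- **(K-CAST)** (X1-KUM-1): the lattice operators are the restrictions of the complex ones. -/
def KCast : Prop :=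
  ∀ (i : HeckeIdx M) (l : ↥(LamOf (Gamma1 M))),
    castHomOf (Gamma1 M) ((T i l : ↥(LamOf (Gamma1 M))) : Additive ↥(Gamma1 M) →+ ℤ) =
      Tc i (castHomOf (Gamma1 M) (l : Additive ↥(Gamma1 M) →+ ℤ))

/-- **(K-UNR)** (X1-RED mixed characteristic ⇐ X1-GOOD): inertia at `p ∤ M` acts trivially on the
prime-to-`p` torsion of `J₁(M)(ℚ̄)`. -/
def KUnr : Prop :=
  ∀ p : ℕ, p.Prime → ¬ p ∣ M → ∀ A : ValuationSubring Qb, A.LiesOverPrime p →
    ∀ σ ∈ A.inertiaSubgroupIn ℚ, ∀ (m : ℕ), m.Coprime p → ∀ x : JOne M, m • x = 0 → σ • x = x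

/-- **(K-ES)** (X1-ES): the Eichler–Shimura relation on the prime-to-`p` torsion, for Frobenius
elements at `p ∤ M`, in the `mu`-shape (`et = false`): `σ²x − T_p σx + p⟨p⟩x = 0`, or in the
`et`-shape (`et = true`): `⟨p⟩σ²x − T_p σx + p x = 0`. -/
def KES (et : Bool) : Prop :=
  ∀ (p : ℕ) (hp : p.Prime) (hpM : ¬ p ∣ M) (A : ValuationSubring Qb), A.LiesOverPrime p →
    ∀ σ : GQ, A.IsFrobeniusAt σ p → ∀ (m : ℕ), m.Coprime p → ∀ x : JOne M, m • x = 0 →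
      (if et then
        S (idxD hp hpM) (σ • σ • x) - S (idxT hp hpM) (σ • x) + p • x = 0
      else
        σ • σ • x - S (idxT hp hpM) (σ • x) + p • S (idxD hp hpM) x = 0)

/-- **(K-PER)** (X1-KUM-3): the period homomorphism of a nonzero nebentypus eigenvector is a
nonzero parabolic eigenvector of the `Tc i`, with eigenvalues `b p` and `ψ d`. -/
def KPer : Prop :=
  ∀ (ψ : DirichletCharacter ℂ M) (v : CuspForm (Gamma1 M) 2) (b : ℕ → ℂ), v ≠ 0 →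
    IsNeben 2 ψ v → HeckeRel M 2 ψ (fun n => qCoeff v n) b →
    ∃ P : HomC M, P ≠ 0 ∧ IsParabolicHom (Gamma1 M) P ∧
      (∀ (p : ℕ) (hp : p.Prime) (hpM : ¬ p ∣ M), Tc (idxT hp hpM) P = b p • P) ∧
      ∀ d : (ZMod M)ˣ, Tc (Sum.inr d) P = ψ (d : ZMod M) • P

end Kernels

/-- **(K-STAB)** (main's `Res/OpenStab` + `RiemannPkg ℚ̄ (K1Bar M)`): open stabilisers. -/
def KStab (M : ℕ) [NeZero M] : Prop :=
  ∀ x : JOne M, ∃ L : IntermediateField ℚ Qb, FiniteDimensional ℚ L ∧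
    ∀ σ : GQ, (∀ a ∈ L, σ a = a) → σ • x = x

/-- **the `Γ₁(M)` Hecke–Galois data**: operators with all the kernel properties. -/
def KData (M : ℕ) [NeZero M] : Prop :=
  ∃ (S : HeckeIdx M → Module.End ℤ (JOne M))
    (T : HeckeIdx M → Module.End ℤ ↥(LamOf (Gamma1 M)))
    (Tc : HeckeIdx M → (HomC M →ₗ[ℂ] HomC M)),
    KComm M S ∧ KGal M S ∧ KKum M S T ∧ KCast M T Tc ∧ KUnr M ∧ (KES M S false ∨ KES M S true) ∧
      KPer M Tc

/-! ### Generic tools: torsion representation, twist -/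

section TorsRep

variable {G : Type*} [Group G] {Rg : Type*} [CommRing Rg] (J : Type*) [AddCommGroup J]
  [Module Rg J] [DistribMulAction G J] [SMulCommClass G Rg J]

/-- the `𝔪`-torsion of a module. -/
abbrev torsM (𝔪 : Ideal Rg) : Submodule Rg J := Submodule.torsionBySet Rg J (𝔪 : Set Rg)

theorem mem_torsM_iff (𝔪 : Ideal Rg) (x : J) : x ∈ torsM J 𝔪 ↔ ∀ t ∈ 𝔪, t • x = 0 := by
  rw [Submodule.mem_torsionBySet_iff]
  exact ⟨fun h t ht => h ⟨t, ht⟩, fun h t => h t.1 t.2⟩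

theorem smul_mem_torsM {𝔪 : Ideal Rg} (g : G) {x : J} (hx : x ∈ torsM J 𝔪) :
    g • x ∈ torsM J 𝔪 := by
  rw [mem_torsM_iff] at hx ⊢
  intro t ht
  rw [← smul_comm g t x, hx t ht, smul_zero]

/-- the action of `G` on the `𝔪`-torsion, linear over the residue ring (generic twin of the
Prelude's `mTorsionGaloisRep`). -/
def torsRep (𝔪 : Ideal Rg) : G →* Module.End (Rg ⧸ 𝔪) (torsM J 𝔪) where
  toFun g :=
    { toFun := fun x => ⟨g • (x : J), smul_mem_torsM J g x.2⟩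
      map_add' := fun x y => by
        ext
        simp [smul_add]
      map_smul' := fun r x => by
        obtain ⟨a, rfl⟩ := Ideal.Quotient.mk_surjective r
        ext
        simp only [Submodule.torsionBySet.mk_smul, RingHom.id_apply, Submodule.coe_smul]
        exact smul_comm g a (x : J) }
  map_one' := by
    ext x
    simp
  map_mul' g h := by
    ext x
    simp [mul_smul]

@[simp] theorem coe_torsRep_apply (𝔪 : Ideal Rg) (g : G) (x : torsM J 𝔪) :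
    ((torsRep J 𝔪 g x : torsM J 𝔪) : J) = g • (x : J) := rfl

end TorsRep

section Twist

variable {G : Type*} [Group G] {κ : Type*} [Field κ] {T : Type*} [AddCommGroup T] [Module κ T]

/-- the twist of a representation by a character. -/
def twistRep (χ : G →* κˣ) (R : G →* Module.End κ T) : G →* Module.End κ T where
  toFun g := ((χ g : κˣ) : κ) • R g
  map_one' := by simp
  map_mul' g h := by
    rw [map_mul, map_mul, Units.val_mul, smul_mul_smul_comm]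

theorem twistRep_apply (χ : G →* κˣ) (R : G →* Module.End κ T) (g : G) (y : T) :
    twistRep χ R g y = ((χ g : κˣ) : κ) • R g y := rfl

end Twist

/-! ### Layer B: from an eigen-ideal of the anemic Hecke algebra to a representation -/

section LayerB

variable {M : ℕ} [NeZero M] {ℓ : ℕ} [hℓ : Fact ℓ.Prime]

local notation "𝕋" => MvPolynomial (HeckeIdx M) ℤ

theorem not_dvd_left_of_not_dvd_mul {q M ℓ : ℕ} (h : ¬ q ∣ M * ℓ) : ¬ q ∣ M :=
  fun h' => h (Dvd.dvd.mul_right h' ℓ)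

theorem ne_of_not_dvd_mul {q M ℓ : ℕ} (h : ¬ q ∣ M * ℓ) : q ≠ ℓ :=
  fun h' => h (h' ▸ Dvd.intro_left M rfl)

/-- **Layer B** (the `Γ₁`-twin of main's `Res/S29Generic.exists_residualRep_of_eigenIdeal`): `J` a
module over the anemic Hecke algebra `𝕋 = ℤ[T_p, ⟨d⟩]` with a commuting action of `G_ℚ` with open
stabilisers; `𝔪 = eigenIdealGen cc` maximal with finite residue field, `ℓ ∈ 𝔪`, `J[𝔪] ≠ 0`;
inertia at `q ∤ Mℓ` trivial on `J[ℓ]`; the Eichler–Shimura relation on `J[ℓ]` at every `q ∤ Mℓ`, in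
the `mu`- or in the `et`-shape.  Then (core (K-RESB)) there is a `ResidualGaloisRep k`, unramified
outside `Mℓ`, with `charpoly (ρ Frob_q) = X² − cc(T_q) X + cc(⟨q⟩) q`. -/
theorem exists_rep_of_eigenIdeal (hcore : KResCore)
    (J : Type) [AddCommGroup J] [Module 𝕋 J] [DistribMulAction GQ J] [SMulCommClass GQ 𝕋 J]
    {k : Type} [Field k] [CharP k ℓ] (cc : HeckeIdx M → k)
    (hmax : (eigenIdealGen cc).IsMaximal) (hfin : Finite (𝕋 ⧸ eigenIdealGen cc))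
    (hℓ𝔪 : ((ℓ : ℕ) : 𝕋) ∈ eigenIdealGen cc)
    (hne : Submodule.torsionBySet 𝕋 J ((eigenIdealGen cc : Ideal 𝕋) : Set 𝕋) ≠ ⊥)
    (hδ1 : cc (Sum.inr 1) = 1)
    (hδmul : ∀ u u' : (ZMod M)ˣ, cc (Sum.inr (u * u')) = cc (Sum.inr u) * cc (Sum.inr u'))
    (hstab : ∀ x : J, ∃ L : IntermediateField ℚ Qb, FiniteDimensional ℚ L ∧
      ∀ σ : GQ, (∀ a ∈ L, σ a = a) → σ • x = x)
    (hunr : ∀ q : ℕ, q.Prime → ¬ q ∣ M * ℓ → ∀ A : ValuationSubring Qb, A.LiesOverPrime q →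
      ∀ σ ∈ A.inertiaSubgroupIn ℚ, ∀ x : J, ℓ • x = 0 → σ • x = x)
    (et : Bool)
    (hes : ∀ (q : ℕ) (hq : q.Prime) (hqM : ¬ q ∣ M), q ≠ ℓ → ∀ A : ValuationSubring Qb,
      A.LiesOverPrime q → ∀ σ : GQ, A.IsFrobeniusAt σ q → ∀ x : J, ℓ • x = 0 →
        (if et then
          (MvPolynomial.X (idxD hq hqM) : 𝕋) • (σ • σ • x) -
            (MvPolynomial.X (idxT hq hqM) : 𝕋) • (σ • x) + q • x = 0
        else
          σ • σ • x - (MvPolynomial.X (idxT hq hqM) : 𝕋) • (σ • x) +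
            q • ((MvPolynomial.X (idxD hq hqM) : 𝕋) • x) = 0)) :
    ∃ ρ : ResidualGaloisRep k,
      (∀ q : ℕ, q.Prime → ¬ q ∣ M * ℓ → ρ.IsUnramifiedAt q) ∧
      ∀ (q : ℕ) (hq : q.Prime) (hqMℓ : ¬ q ∣ M * ℓ) (A : ValuationSubring Qb),
        A.LiesOverPrime q → ∀ σ : GQ, A.IsFrobeniusAt σ q →
          LinearMap.charpoly (ρ.ρ σ) =
            X ^ 2 - C (cc (idxT hq (not_dvd_left_of_not_dvd_mul hqMℓ))) * X +
              C (cc (idxD hq (not_dvd_left_of_not_dvd_mul hqMℓ)) * (q : k)) := by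
  classical
  have hℓ' : ℓ.Prime := hℓ.out
  set 𝔪 : Ideal 𝕋 := eigenIdealGen cc with h𝔪
  haveI := hmax
  letI : Field (𝕋 ⧸ 𝔪) := Ideal.Quotient.field 𝔪
  haveI : Finite (𝕋 ⧸ 𝔪) := hfin
  let ι : 𝕋 ⧸ 𝔪 →+* k := eigenResEmb cc
  have hι : Function.Injective ι := eigenResEmb_injective cc
  haveI : CharP (𝕋 ⧸ 𝔪) ℓ := RingHom.charP ι hι ℓ
  have hιX : ∀ i, ι (Ideal.Quotient.mk 𝔪 (MvPolynomial.X i)) = cc i := eigenResEmb_mk_X cc
  -- the reduction of the nebentypus as a character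
  let δ0 : (ZMod M)ˣ →* (𝕋 ⧸ 𝔪) :=
    { toFun := fun u => Ideal.Quotient.mk 𝔪 (MvPolynomial.X (Sum.inr u))
      map_one' := hι (by rw [hιX, hδ1, map_one])
      map_mul' := fun u u' => hι (by rw [map_mul, hιX, hιX, hιX, hδmul]) }
  let δ : (ZMod M)ˣ →* (𝕋 ⧸ 𝔪)ˣ := δ0.toHomUnits
  have hδ : ∀ u, ((δ u : (𝕋 ⧸ 𝔪)ˣ) : 𝕋 ⧸ 𝔪) =
      Ideal.Quotient.mk 𝔪 (MvPolynomial.X (Sum.inr u)) := fun u => rfl
  let χ : GQ →* (𝕋 ⧸ 𝔪)ˣ := δ.comp (cycloM M)
  let d : GQ →* (𝕋 ⧸ 𝔪)ˣ := Fermat.Agent.Res.cycloCharK ℓ (𝕋 ⧸ 𝔪) * χ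
  let R0 : GQ →* Module.End (𝕋 ⧸ 𝔪) (torsM J 𝔪) := torsRep (G := GQ) J 𝔪
  let c : Nat.Primes → 𝕋 ⧸ 𝔪 := fun q =>
    if h : ¬ (q : ℕ) ∣ M then Ideal.Quotient.mk 𝔪 (MvPolynomial.X (Sum.inl ⟨q, h⟩)) else 0
  obtain ⟨x, hx, hx0⟩ := Submodule.exists_mem_ne_zero_of_ne_bot hne
  have hB : M * ℓ ≠ 0 := Nat.mul_ne_zero (NeZero.ne M) hℓ'.ne_zero
  -- `J[𝔪]` is killed by `ℓ`
  have hℓT : ∀ y : torsM J 𝔪, ℓ • (y : J) = 0 := fun y => by
    have h1 := (mem_torsM_iff J 𝔪 (y : J)).mp y.2 _ hℓ𝔪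
    rwa [Nat.cast_smul_eq_nsmul] at h1
  -- finite levels
  obtain ⟨Lc, hLcfin, hLc⟩ := Fermat.Agent.Res.exists_finite_level_K ℓ (𝕋 ⧸ 𝔪)
  obtain ⟨LM, hLMfin, hLM⟩ := exists_finite_level_M M
  haveI := hLcfin
  haveI := hLMfin
  have hχ1 : ∀ σ : GQ, (∀ a ∈ LM, σ a = a) → χ σ = 1 := fun σ hσ => by
    have h1 : cycloM M σ = cycloM M 1 := hLM σ 1 fun a ha => by rw [hσ a ha]; rfl
    show δ (cycloM M σ) = 1
    rw [h1, map_one, map_one]
  have hd1 : ∃ L : IntermediateField ℚ Qb, FiniteDimensional ℚ L ∧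
      ∀ σ : GQ, (∀ a ∈ L, σ a = a) → d σ = 1 := by
    refine ⟨Lc ⊔ LM, IntermediateField.finiteDimensional_sup _ _, fun σ hσ => ?_⟩
    have h1 : Fermat.Agent.Res.cycloCharK ℓ (𝕋 ⧸ 𝔪) σ =
        Fermat.Agent.Res.cycloCharK ℓ (𝕋 ⧸ 𝔪) 1 :=
      hLc σ 1 fun a ha => by rw [hσ a ((le_sup_left : Lc ≤ Lc ⊔ LM) ha)]; rfl
    show Fermat.Agent.Res.cycloCharK ℓ (𝕋 ⧸ 𝔪) σ * χ σ = 1
    rw [h1, map_one, one_mul]
    exact hχ1 σ fun a ha => hσ a ((le_sup_right : LM ≤ Lc ⊔ LM) ha)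
  have hχinert : ∀ q : ℕ, q.Prime → ¬ q ∣ M * ℓ → ∀ A : ValuationSubring Qb, A.LiesOverPrime q →
      ∀ σ ∈ A.inertiaSubgroupIn ℚ, χ σ = 1 := fun q hq hqB A hA σ hσ => by
    show δ (cycloM M σ) = 1
    rw [cycloM_eq_one_of_mem_inertia M hq (not_dvd_left_of_not_dvd_mul hqB) A hA hσ, map_one]
  have hdinert : ∀ q : ℕ, q.Prime → ¬ q ∣ M * ℓ → ∀ A : ValuationSubring Qb, A.LiesOverPrime q →
      ∀ σ ∈ A.inertiaSubgroupIn ℚ, d σ = 1 := fun q hq hqB A hA σ hσ => by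
    show Fermat.Agent.Res.cycloCharK ℓ (𝕋 ⧸ 𝔪) σ * χ σ = 1
    rw [Fermat.Agent.Res.cycloCharK_eq_one_of_mem_inertia ℓ (𝕋 ⧸ 𝔪) hq (ne_of_not_dvd_mul hqB) A hA
      hσ, hχinert q hq hqB A hA σ hσ, one_mul]
  -- Frobenius values
  have hχfrob : ∀ (q : ℕ) (hq : q.Prime) (hqB : ¬ q ∣ M * ℓ) (A : ValuationSubring Qb),
      A.LiesOverPrime q → ∀ σ : GQ, A.IsFrobeniusAt σ q →
        ((χ σ : (𝕋 ⧸ 𝔪)ˣ) : 𝕋 ⧸ 𝔪) = Ideal.Quotient.mk 𝔪
          (MvPolynomial.X (idxD hq (not_dvd_left_of_not_dvd_mul hqB))) := by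
    intro q hq hqB A hA σ hσ
    have h1 : cycloM M σ = ZMod.unitOfCoprime q
        ((Nat.Prime.coprime_iff_not_dvd hq).mpr (not_dvd_left_of_not_dvd_mul hqB)) := by
      apply Units.ext
      rw [ZMod.coe_unitOfCoprime]
      exact cycloM_frobenius M hq (not_dvd_left_of_not_dvd_mul hqB) A hA hσ
    show ((δ (cycloM M σ) : (𝕋 ⧸ 𝔪)ˣ) : 𝕋 ⧸ 𝔪) = _
    rw [h1, hδ]
    rfl
  have hdfrob : ∀ (q : ℕ) (hq : q.Prime) (hqB : ¬ q ∣ M * ℓ) (A : ValuationSubring Qb),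
      A.LiesOverPrime q → ∀ σ : GQ, A.IsFrobeniusAt σ q →
        ((d σ : (𝕋 ⧸ 𝔪)ˣ) : 𝕋 ⧸ 𝔪) = (q : 𝕋 ⧸ 𝔪) * Ideal.Quotient.mk 𝔪
          (MvPolynomial.X (idxD hq (not_dvd_left_of_not_dvd_mul hqB))) := by
    intro q hq hqB A hA σ hσ
    show ((Fermat.Agent.Res.cycloCharK ℓ (𝕋 ⧸ 𝔪) σ * χ σ : (𝕋 ⧸ 𝔪)ˣ) : 𝕋 ⧸ 𝔪) = _
    rw [Units.val_mul, Fermat.Agent.Res.cycloCharK_frobenius ℓ (𝕋 ⧸ 𝔪) hq (ne_of_not_dvd_mul hqB) A
      hA hσ, hχfrob q hq hqB A hA σ hσ]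
  have hcq : ∀ (q : ℕ) (hq : q.Prime) (hqM : ¬ q ∣ M),
      c ⟨q, hq⟩ = Ideal.Quotient.mk 𝔪 (MvPolynomial.X (idxT hq hqM)) := fun q hq hqM => by
    show (if h : ¬ q ∣ M then Ideal.Quotient.mk 𝔪 (MvPolynomial.X (Sum.inl ⟨⟨q, hq⟩, h⟩)) else 0) = _
    rw [dif_pos hqM]
    rfl
  -- open stabiliser of `x`
  obtain ⟨Lx, hLxfin, hLx⟩ := hstab x
  haveI := hLxfin
  -- the representation fed to the core: `R0` or its twist by `χ`
  obtain ⟨ρ, h1, h2⟩ : ∃ ρ : ResidualGaloisRep k,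
      (∀ q : ℕ, (hq : q.Prime) → ¬ q ∣ M * ℓ → ∀ A : ValuationSubring Qb, A.LiesOverPrime q →
        ∀ σ : GQ, A.IsFrobeniusAt σ q →
          LinearMap.charpoly (ρ.ρ σ) =
            X ^ 2 - C (ι (c ⟨q, hq⟩)) * X + C (ι ((d σ : (𝕋 ⧸ 𝔪)ˣ) : 𝕋 ⧸ 𝔪))) ∧
      ∀ q : ℕ, q.Prime → ¬ q ∣ M * ℓ → ρ.IsUnramifiedAt q := by
    cases et with
    | false =>
      refine hcore (M * ℓ) (𝕋 ⧸ 𝔪) k ι (torsM J 𝔪) R0 c d hB hd1 hdinert ⟨x, hx⟩
        (fun h => hx0 (congrArg Subtype.val h))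
        ⟨Lx, hLxfin, fun σ hσ => Subtype.ext (hLx σ hσ)⟩
        (fun q hq hqB A hA σ hσ y => Subtype.ext (hunr q hq hqB A hA σ hσ (y : J) (hℓT y))) ?_
      intro q hq hqB A hA σ hσ y
      have hqM := not_dvd_left_of_not_dvd_mul hqB
      have h := hes q hq hqM (ne_of_not_dvd_mul hqB) A hA σ hσ (y : J) (hℓT y)
      simp only [Bool.false_eq_true, if_false] at h
      rw [hcq q hq hqM, hdfrob q hq hqB A hA σ hσ]
      apply Subtype.ext
      have e1 : ((Ideal.Quotient.mk 𝔪 (MvPolynomial.X (idxT hq hqM)) • R0 σ y : torsM J 𝔪) : J) =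
          (MvPolynomial.X (idxT hq hqM) : 𝕋) • (σ • (y : J)) := rfl
      have e2 : ((((q : 𝕋 ⧸ 𝔪) * Ideal.Quotient.mk 𝔪 (MvPolynomial.X (idxD hq hqM))) • y :
          torsM J 𝔪) : J) = q • ((MvPolynomial.X (idxD hq hqM) : 𝕋) • (y : J)) := by
        rw [mul_smul, Nat.cast_smul_eq_nsmul]
        rfl
      rw [Submodule.coe_add, Submodule.coe_sub, e1, e2]
      exact h
    | true =>
      refine hcore (M * ℓ) (𝕋 ⧸ 𝔪) k ι (torsM J 𝔪) (twistRep χ R0) c d hB hd1 hdinert ⟨x, hx⟩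
        (fun h => hx0 (congrArg Subtype.val h))
        ⟨Lx ⊔ LM, IntermediateField.finiteDimensional_sup _ _, fun σ hσ => ?_⟩
        (fun q hq hqB A hA σ hσ y => ?_) ?_
      · rw [twistRep_apply, hχ1 σ fun a ha => hσ a ((le_sup_right : LM ≤ Lx ⊔ LM) ha),
          Units.val_one, one_smul]
        exact Subtype.ext (hLx σ fun a ha => hσ a ((le_sup_left : Lx ≤ Lx ⊔ LM) ha))
      · rw [twistRep_apply, hχinert q hq hqB A hA σ hσ, Units.val_one, one_smul]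
        exact Subtype.ext (hunr q hq hqB A hA σ hσ (y : J) (hℓT y))
      · intro q hq hqB A hA σ hσ y
        have hqM := not_dvd_left_of_not_dvd_mul hqB
        have h := hes q hq hqM (ne_of_not_dvd_mul hqB) A hA σ hσ (y : J) (hℓT y)
        simp only [if_true] at h
        rw [hcq q hq hqM, hdfrob q hq hqB A hA σ hσ, twistRep_apply, twistRep_apply, map_smul,
          hχfrob q hq hqB A hA σ hσ]
        set u : 𝕋 ⧸ 𝔪 := Ideal.Quotient.mk 𝔪 (MvPolynomial.X (idxD hq hqM)) with hu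
        set t : 𝕋 ⧸ 𝔪 := Ideal.Quotient.mk 𝔪 (MvPolynomial.X (idxT hq hqM)) with ht
        have key : u • R0 σ (R0 σ y) - t • R0 σ y + (q : 𝕋 ⧸ 𝔪) • y = 0 := by
          apply Subtype.ext
          have e1 : ((u • R0 σ (R0 σ y) : torsM J 𝔪) : J) =
              (MvPolynomial.X (idxD hq hqM) : 𝕋) • (σ • σ • (y : J)) := rfl
          have e2 : ((t • R0 σ y : torsM J 𝔪) : J) =
              (MvPolynomial.X (idxT hq hqM) : 𝕋) • (σ • (y : J)) := rfl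
          have e3 : (((q : 𝕋 ⧸ 𝔪) • y : torsM J 𝔪) : J) = q • (y : J) := by
            rw [Nat.cast_smul_eq_nsmul]
            rfl
          rw [Submodule.coe_add, Submodule.coe_sub, e1, e2, e3]
          exact h
        have e : u • u • R0 σ (R0 σ y) - t • u • R0 σ y + ((q : 𝕋 ⧸ 𝔪) * u) • y =
            u • (u • R0 σ (R0 σ y) - t • R0 σ y + (q : 𝕋 ⧸ 𝔪) • y) := by
          rw [smul_add, smul_sub, smul_comm u t, mul_comm, mul_smul]
        rw [e, key, smul_zero]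
  refine ⟨ρ, h2, fun q hq hqB A hA σ hσ => ?_⟩
  have hqM := not_dvd_left_of_not_dvd_mul hqB
  rw [h1 q hq hqB A hA σ hσ, hcq q hq hqM, hdfrob q hq hqB A hA σ hσ, hιX, map_mul, hιX,
    map_natCast, mul_comm (q : k)]

end LayerB

/-! ### The glue -/

/-- values of Dirichlet characters are algebraic integers. -/
theorem isIntegral_dirichletValue (N : ℕ) [NeZero N] (ε : DirichletCharacter ℂ N) (x : ZMod N) :
    IsIntegral ℤ (ε x) := by
  by_cases hx : IsUnit x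
  · obtain ⟨u, rfl⟩ := hx
    have h1 : (ε (u : ZMod N)) ^ (Fintype.card (ZMod N)ˣ) = 1 := by
      rw [← map_pow, ← Units.val_pow_eq_pow_val, pow_card_eq_one, Units.val_one, map_one]
    exact IsIntegral.of_pow (Fintype.card_pos) (h1 ▸ isIntegral_one)
  · rw [MulChar.map_nonunit ε hx]
    exact isIntegral_zero

/-- **X1-OUT from the kernels.** -/
theorem x1Out_of_kernels (hcore : KResCore)
    (h : ∀ (M : ℕ) [NeZero M], 5 ≤ M → KStab M ∧ KData M) : X1OutM := by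
  intro M _ hM ψ v b e hv0 hneb he hrel ℓ hℓ k _ _ φ
  classical
  haveI : Fact ℓ.Prime := ⟨hℓ⟩
  obtain ⟨hstab, S, T, Tc, hcomm0, hgal0, hkum0, hcast0, hunr0, hes, hper0⟩ := h M hM
  have hcomm : ∀ i j, Commute (S i) (S j) := hcomm0
  have hgal : ∀ (σ : GQ) (i : HeckeIdx M) (x : JOne M), S i (σ • x) = σ • S i x := hgal0
  have hkum : ∀ m : ℕ, 0 < m → ∃ ρ : ↥(LamOf (Gamma1 M)) →+ JOne M,
      (∀ x, ρ x = 0 ↔ ∃ y : ↥(LamOf (Gamma1 M)), x = m • y) ∧ ∀ i x, ρ (T i x) = S i (ρ x) := hkum0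
  have hcast : ∀ (i : HeckeIdx M) (l : ↥(LamOf (Gamma1 M))),
      castHomOf (Gamma1 M) ((T i l : ↥(LamOf (Gamma1 M))) : Additive ↥(Gamma1 M) →+ ℤ) =
        Tc i (castHomOf (Gamma1 M) (l : Additive ↥(Gamma1 M) →+ ℤ)) := hcast0
  have hunr : ∀ p : ℕ, p.Prime → ¬ p ∣ M → ∀ A : ValuationSubring Qb, A.LiesOverPrime p →
      ∀ σ ∈ A.inertiaSubgroupIn ℚ, ∀ (m : ℕ), m.Coprime p → ∀ x : JOne M, m • x = 0 → σ • x = x :=
    hunr0
  have hper := hper0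
  unfold KPer at hper
  have hstab : ∀ x : JOne M, ∃ L : IntermediateField ℚ Qb, FiniteDimensional ℚ L ∧
      ∀ σ : GQ, (∀ a ∈ L, σ a = a) → σ • x = x := hstab
  obtain ⟨P, hP0, hPpar, hPT, hPD⟩ := hper ψ v (fun n => (b n : ℂ)) hv0 hneb hrel
  -- the eigenvalues, as algebraic integers
  let β : HeckeIdx M → Zbar := fun i =>
    match i with
    | Sum.inl p => b ((p : Nat.Primes) : ℕ)
    | Sum.inr d => ⟨ψ (d : ZMod M), isIntegral_dirichletValue M ψ _⟩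
  have hβ : ∀ i, Tc i P = (β i : ℂ) • P := by
    rintro (⟨⟨p, hp⟩, hpM⟩ | d)
    · exact hPT p hp hpM
    · exact hPD d
  have hT : ∀ i j, Commute (T i) (T j) := commute_of_kummerMaps hcomm hkum
  obtain ⟨ρK, hker, hρK⟩ := hkum ℓ hℓ.pos
  obtain ⟨hmax, hfin, hℓ𝔪, hne⟩ := exists_eigenPackage_of_parabolic hT hcomm hℓ.ne_zero ρK hker hρK
    Tc hcast hP0 hPpar β hβ φ (CharP.cast_eq_zero k ℓ)
  -- the module structure over the anemic Hecke algebra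
  letI : Module (MvPolynomial (HeckeIdx M) ℤ) (JOne M) := polyModule S hcomm
  haveI : SMulCommClass GQ (MvPolynomial (HeckeIdx M) ℤ) (JOne M) := ⟨fun σ t x => by
    show σ • polyEval S hcomm t x = polyEval S hcomm t (σ • x)
    exact map_polyEval hcomm hcomm (DistribSMul.toAddMonoidHom (JOne M) σ)
      (fun i y => (hgal σ i y).symm) t x⟩
  have hX : ∀ (i : HeckeIdx M) (x : JOne M),
      (MvPolynomial.X i : MvPolynomial (HeckeIdx M) ℤ) • x = S i x := fun i x => by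
    show polyEval S hcomm (MvPolynomial.X i) x = S i x
    rw [polyEval_X]
  obtain ⟨et, hes'⟩ : ∃ et, KES M S et := by
    rcases hes with h | h
    exacts [⟨false, h⟩, ⟨true, h⟩]
  have hcop : ∀ q : ℕ, q.Prime → ¬ q ∣ M * ℓ → ℓ.Coprime q := fun q hq hqB =>
    (Nat.coprime_primes hℓ hq).mpr fun h => ne_of_not_dvd_mul hqB h.symm
  obtain ⟨ρ, h1, h2⟩ := exists_rep_of_eigenIdeal (M := M) (ℓ := ℓ) hcore (JOne M)
    (fun i => φ (β i)) hmax hfin hℓ𝔪 hne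
    (by
      have : β (Sum.inr 1) = 1 := Subtype.ext (by
        show ψ ((1 : (ZMod M)ˣ) : ZMod M) = 1
        rw [Units.val_one, map_one])
      rw [this, map_one])
    (fun u u' => by
      have : β (Sum.inr (u * u')) = β (Sum.inr u) * β (Sum.inr u') := Subtype.ext (by
        show ψ ((u * u' : (ZMod M)ˣ) : ZMod M) = ψ (u : ZMod M) * ψ (u' : ZMod M)
        rw [Units.val_mul, map_mul])
      rw [this, map_mul])
    hstab
    (fun q hq hqB A hA σ hσ x hx =>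
      hunr q hq (not_dvd_left_of_not_dvd_mul hqB) A hA σ hσ ℓ (hcop q hq hqB) x hx)
    et
    (fun q hq hqM hqℓ A hA σ hσ x hx => by
      have hc : ℓ.Coprime q := (Nat.coprime_primes hℓ hq).mpr fun h => hqℓ h.symm
      have h := hes' q hq hqM A hA σ hσ ℓ hc x hx
      simp only [hX]
      cases et
      · simpa using h
      · simpa using h)
  refine ⟨ρ, h1, fun p hp hpB A hA σ hσ => ?_⟩
  rw [h2 p hp hpB A hA σ hσ]
  have hpM := not_dvd_left_of_not_dvd_mul hpB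
  have e1 : β (idxT hp hpM) = b p := rfl
  have e2 : β (idxD hp hpM) = e p := Subtype.ext (by
    show ψ ((ZMod.unitOfCoprime p _ : (ZMod M)ˣ) : ZMod M) = (e p : ℂ)
    rw [ZMod.coe_unitOfCoprime, he p])
  rw [e1, e2]

end Fermat.Agent.DS.X1OutSkeleton
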