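/-
PROGRAMME III (S48, Deligne–Serre) — X1-OUT WIRING (helper4).

What is already a THEOREM among the kernels of `DS/X1OutSkeleton.lean`, and the chain down to the
frozen S48:

* `tcOne M`, `tLat M`: the NORMALISED complex and lattice operators (helper9's `hecke1`,
  `diamondUnit`, `T1Lam`, `diamondLam`);
* `kPer  : KPer M (tcOne M)`         (helper9 KUM-3 through helper28's `KumBridge`);
* `kCast : KCast M (tLat M) (tcOne M)` (helper9 KUM-1);
* `kStab_of_riemannPkg`               (main's `Res/OpenStab`);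
* `KGeom M` : what REMAINS per level: `RiemannPkg ℚ̄ (K1Bar M)` and operators `S` on `JOne M` with
  `KComm`, `KGal`, `KKum M S (tLat M)`, `KUnr`, `KES`;
* `s48_of_port : KResCore → (∀ M ≥ 5, KGeom M) → <frozen S48>`.
-/
import Fermat.Agent.DS.X1OutSkeleton
import Fermat.Agent.DS.DS4.Closed
import Fermat.Agent.DS.DS4.KumBridge
import Fermat.Agent.DS.Kum.Gamma1Reps
import Fermat.Agent.DS.S48Wiring
import Fermat.Agent.Res.OpenStab
import Fermat.Agent.DS.J1Spec.Unramified

set_option autoImplicit false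
set_option linter.style.haveILetI false
set_option linter.unusedSectionVars false

open scoped MatrixGroups ModularForm
open CongruenceSubgroup ModularFormClass Polynomial
open ModularCurve.Period

noncomputable section

namespace Fermat.Agent.DS.X1OutWiring

open Fermat.Agent.DS.Kum Fermat.Agent.DS.X1Res Fermat.Agent.DS.DS4 Fermat.Agent.DS.X1
open Fermat.Agent.DS.X1OutSkeleton

local notation "Qb" => AlgebraicClosure ℚ
local notation "GQ" => (AlgebraicClosure ℚ ≃ₐ[ℚ] AlgebraicClosure ℚ)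
local notation "Zbar" => integralClosure ℤ ℂ

variable (M : ℕ) [NeZero M]

/-- an additive endomorphism of `Hom(Γ₁(M), ℂ)` commuting with scalars, as a linear map. -/
def linOfAdd (f : HomC M →+ HomC M) (hf : ∀ (r : ℂ) (φ : HomC M), f (r • φ) = r • f φ) :
    HomC M →ₗ[ℂ] HomC M where
  toFun := f
  map_add' := map_add f
  map_smul' := hf

/-- **the normalised complex operators**: `T_p ↦ hecke1`, `⟨d⟩ ↦ diamondUnit d` (helper9). -/
def tcOne : HeckeIdx M → (HomC M →ₗ[ℂ] HomC M)
  | Sum.inl p => linOfAdd M (hecke1 M ℂ p.1.2 p.2) (fun r φ => hecke1_smul M p.1.2 p.2 r φ)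
  | Sum.inr d => linOfAdd M (diamondUnit M ℂ d) (fun r φ => diamondUnit_smul M d r φ)

/-- **the normalised lattice operators**: `T_p ↦ T1Lam`, `⟨d⟩ ↦ diamondLam d` (helper9). -/
def tLat : HeckeIdx M → Module.End ℤ ↥(LamOf (Gamma1 M))
  | Sum.inl p => T1Lam M p.1.2 p.2
  | Sum.inr d => diamondLam M d

/-- **(K-CAST)** for the normalised operators. -/
theorem kCast : KCast M (tLat M) (tcOne M) := by
  rintro (p | d) l
  · show castHomOf (Gamma1 M) ((T1Lam M p.1.2 p.2 l : ↥(LamOf (Gamma1 M))) :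
        Additive ↥(Gamma1 M) →+ ℤ) = hecke1 M ℂ p.1.2 p.2 (castHomOf (Gamma1 M) l)
    rw [coe_T1Lam_apply, hecke1_castHomOf]
  · show castHomOf (Gamma1 M) ((diamondLam M d l : ↥(LamOf (Gamma1 M))) :
        Additive ↥(Gamma1 M) →+ ℤ) = diamondUnit M ℂ d (castHomOf (Gamma1 M) l)
    rw [coe_diamondLam_apply, diamondUnit_castHomOf]

/-- **(K-PER)** for the normalised operators (helper9 KUM-3 + helper28's bridge). -/
theorem kPer : KPer M (tcOne M) := by
  intro ψ v b hv hneb hrel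
  obtain ⟨P, hP0, hPpar, hT, hD⟩ := exists_parabolic_eigenvector_of_heckeRel M ψ v b hv hneb hrel
  exact ⟨P, hP0, hPpar, fun p hp hpM => hT p hp hpM, fun d => hD d⟩

/-- **(K-STAB)** from the Riemann package of `K1Bar M` (main's `Res/OpenStab`). -/
theorem kStab_of_riemannPkg (hF : Fermat.Agent.Red.RiemannPkg Qb (K1Bar M)) : KStab M :=
  fun x => Fermat.Agent.Res.exists_finite_fixing_pic0 (K1 M) hF x

/-- **(K-GOOD)** (X1-GOOD, output of G-4 in helper5's literal): good reduction of `K1 M` at every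
place of `ℚ̄` over a prime `p ∤ M`. -/
def KGood : Prop :=
  ∀ p : ℕ, p.Prime → ¬ p ∣ M → ∀ A : ValuationSubring Qb, A.LiesOverPrime p →
    Fermat.Agent.DS.J1Spec.GoodReductionAt (K1 M) A

/-- **(K-UNR)** from good reduction (helper5's `inertia_smul_eq_of_goodReduction`). -/
theorem kUnr_of_kGood (hF : Fermat.Agent.Red.RiemannPkg Qb (K1Bar M)) (hg : KGood M) : KUnr M :=
  fun p hp hpM A hA σ hσ m hm x hx => by
    haveI : Fact p.Prime := ⟨hp⟩
    exact Fermat.Agent.DS.J1Spec.inertia_smul_eq_of_goodReduction hA hF (hg p hp hpM A hA) σ hσ m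
      hm x hx

/-- **what remains per level `M`** (the geometric kernels of the port). -/
def KGeom : Prop :=
  Fermat.Agent.Red.RiemannPkg Qb (K1Bar M) ∧
    ∃ S : HeckeIdx M → Module.End ℤ (JOne M),
      KComm M S ∧ KGal M S ∧ KKum M S (tLat M) ∧ KUnr M ∧ (KES M S false ∨ KES M S true)

theorem kData_of_kGeom (h : KGeom M) : KStab M ∧ KData M := by
  obtain ⟨hF, S, h1, h2, h3, h4, h5⟩ := h
  exact ⟨kStab_of_riemannPkg M hF, S, tLat M, tcOne M, h1, h2, h3, kCast M, h4, h5, kPer M⟩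

/-- the skeleton's target implies helper28's literal (which also assumes `5 ≤ ℓ`). -/
theorem x1Out_of_x1OutM (h : X1OutM) : Fermat.Agent.DS.DS4.X1Out :=
  fun M _ hM ψ v b e hv hneb he hrel ℓ hℓ _ k _ _ φ => h M hM ψ v b e hv hneb he hrel ℓ hℓ k φ

/-- **X1-OUT from the geometric kernels.** -/
theorem x1Out_of_port (hcore : KResCore) (h : ∀ (M : ℕ) [NeZero M], 5 ≤ M → KGeom M) :
    Fermat.Agent.DS.DS4.X1Out :=
  x1Out_of_x1OutM (x1Out_of_kernels hcore fun M _ hM => kData_of_kGeom M (h M hM))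

/-- **S48 from the port**: the conclusion is the frozen statement verbatim. -/
theorem s48_of_port (hcore : KResCore) (h : ∀ (M : ℕ) [NeZero M], 5 ≤ M → KGeom M)
    (N : ℕ) [NeZero N] (ε : DirichletCharacter ℂ N) (f : CuspForm (Gamma1 N) 1)
    (hf₁ : ModularFormClass.qCoeff f 1 = 1)
    (hT : ∀ p : ℕ, p.Prime → ¬ p ∣ N → ∀ n : ℕ,
        ModularFormClass.qCoeff f (p * n) +
            ε (p : ZMod N) * (if p ∣ n then ModularFormClass.qCoeff f (n / p) else 0) =
          ModularFormClass.qCoeff f p * ModularFormClass.qCoeff f n) :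
    ∃ ρ : GQ →* GL (Fin 2) ℂ, GaloisFactorsThroughFiniteLevel ρ ∧
      (Deformation.matrixRepresentation ρ).IsIrreducible ∧
      ∀ p : ℕ, p.Prime → ¬ p ∣ N →
        ∀ A : ValuationSubring (AlgebraicClosure ℚ), A.LiesOverPrime p →
          (∀ σ ∈ A.inertiaSubgroupIn ℚ, ρ σ = 1) ∧
          ∀ σ : GQ, A.IsFrobeniusAt σ p →
            ((ρ σ : GL (Fin 2) ℂ) : Matrix (Fin 2) (Fin 2) ℂ).trace = ModularFormClass.qCoeff f p ∧
            ((ρ σ : GL (Fin 2) ℂ) : Matrix (Fin 2) (Fin 2) ℂ).det = ε (p : ZMod N) :=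
  Fermat.Agent.DS.S48Wiring.s48_of_ds4 (ds4_of_x1Out (x1Out_of_port hcore h)) N ε f hf₁ hT

end Fermat.Agent.DS.X1OutWiring
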