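/-
PROGRAMME III (S48, Deligne–Serre) — X1-OUT PLUG (helper4): the geometric kernels `KGeom M` of
`DS/X1OutWiring.lean` from the owners' theorems.

* `normS S₀` : the NORMALISED family.  The algebraic `T_p = α_* β^*` of the model
  `(Tate(q^M), q)` matches `hecke1Star = hecke1 ∘ ⟨p⟩⁻¹` on the lattice and the algebraic diamond
  `W_a ↦ W_{ad}` matches `diamondLam d⁻¹` (helper7's `hThetaOf_T1Reps : Nm = Nm_α ∘ β ∘ ⟨σ⟩`),
  so the family intertwined with `(T1Lam p, diamondLam d)` is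
  `normS S₀ (inl p) = S₀ (inl p) ∘ S₀ (inr p⁻¹)`, `normS S₀ (inr d) = S₀ (inr d⁻¹)`;
* `kComm_normS`, `kGal_normS`, `kES_normS` : the kernels pass to the normalised family, and
  helper1's étale relation `⟨p⟩σ²x − T_pσx + px = 0` becomes the `mu`-relation
  `σ²x − S_pσx + p S_⟨p⟩x = 0`;
* `kGeom_of_inputs` : `KGeom M` from helper24's `HeckeInputsOne M` (AN-3, AN-4, product formula),
  helper1's `GoodReductionAtJ` at every place over `p ∤ M` (X1-GOOD) and the Kummer maps for the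
  normalised family (X1-KUM).
* v2: `kResCore` (helper18's `X1Res.kResCore_holds`: the abstract core is a THEOREM),
  `normS_S_eq_Stw : normS I.S = I.Stw (-1) 1` (helper24's normalised family, helper1's
  `kES_mu_Stw`), `KPortTw`, `s48_of_kPortTw` : frozen S48 from `∀ M ≥ 5, KPortTw M` ALONE.
-/
import Fermat.Agent.DS.X1OutWiring
import Fermat.Agent.DS.ES.KESTw
import Fermat.Agent.DS.X1Res.CoreChar

set_option autoImplicit false
set_option linter.style.haveILetI false
set_option linter.unusedSectionVars false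

open scoped MatrixGroups
open CongruenceSubgroup

noncomputable section

namespace Fermat.Agent.DS.X1OutPlug

open Fermat.Agent.DS.Kum Fermat.Agent.DS.X1 Fermat.Agent.DS.X1Hecke Fermat.Agent.DS.ES
open Fermat.Agent.DS.X1OutSkeleton Fermat.Agent.DS.X1OutWiring

local notation "Qb" => AlgebraicClosure ℚ
local notation "GQ" => (AlgebraicClosure ℚ ≃ₐ[ℚ] AlgebraicClosure ℚ)

variable {M : ℕ} [NeZero M]

/-- the unit `p mod M`. -/
def unitP (p : {p : Nat.Primes // ¬ (p : ℕ) ∣ M}) : (ZMod M)ˣ :=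
  ZMod.unitOfCoprime ((p : Nat.Primes) : ℕ)
    ((Nat.Prime.coprime_iff_not_dvd p.1.2).mpr p.2)

/-- **the normalised family.** -/
def normS (S₀ : HeckeIdx M → Module.End ℤ (JOne M)) : HeckeIdx M → Module.End ℤ (JOne M)
  | Sum.inl p => S₀ (Sum.inl p) * S₀ (Sum.inr (unitP p)⁻¹)
  | Sum.inr d => S₀ (Sum.inr d⁻¹)

theorem kComm_normS {S₀ : HeckeIdx M → Module.End ℤ (JOne M)} (h : KComm M S₀) :
    KComm M (normS S₀) := by
  rintro (p | d) (p' | d')
  · exact Commute.mul_left (Commute.mul_right (h _ _) (h _ _))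
      (Commute.mul_right (h _ _) (h _ _))
  · exact Commute.mul_left (h _ _) (h _ _)
  · exact Commute.mul_right (h _ _) (h _ _)
  · exact h _ _

theorem kGal_normS {S₀ : HeckeIdx M → Module.End ℤ (JOne M)} (h : KGal M S₀) :
    KGal M (normS S₀) := by
  rintro σ (p | d) x
  · show S₀ (Sum.inl p) (S₀ (Sum.inr (unitP p)⁻¹) (σ • x)) =
      σ • S₀ (Sum.inl p) (S₀ (Sum.inr (unitP p)⁻¹) x)
    rw [h σ, h σ]
  · exact h σ _ x

/-- **the étale Eichler–Shimura relation for `S₀` is the `mu`-relation for `normS S₀`.** -/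
theorem kES_normS {S₀ : HeckeIdx M → Module.End ℤ (JOne M)} (hcomm : KComm M S₀)
    (hinv : ∀ d : (ZMod M)ˣ, S₀ (Sum.inr d⁻¹) * S₀ (Sum.inr d) = 1)
    (h : KES M S₀ true) : KES M (normS S₀) false := by
  intro p hp hpM A hA σ hσ m hm x hx
  have h0 := h p hp hpM A hA σ hσ m hm x hx
  simp only [if_true] at h0
  simp only [Bool.false_eq_true, if_false]
  set u : (ZMod M)ˣ := ZMod.unitOfCoprime p ((Nat.Prime.coprime_iff_not_dvd hp).mpr hpM) with hu
  have e1 : normS S₀ (idxT hp hpM) = S₀ (idxT hp hpM) * S₀ (Sum.inr u⁻¹) := rfl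
  have e2 : normS S₀ (idxD hp hpM) = S₀ (Sum.inr u⁻¹) := rfl
  have e3 : idxD hp hpM = (Sum.inr u : HeckeIdx M) := rfl
  rw [e1, e2]
  rw [e3] at h0
  -- apply `⟨p⟩⁻¹` to the étale relation
  have h1 := congrArg (S₀ (Sum.inr u⁻¹)) h0
  rw [map_add, map_sub, map_zero, map_nsmul] at h1
  have h2 : S₀ (Sum.inr u⁻¹) (S₀ (Sum.inr u) (σ • σ • x)) = σ • σ • x := by
    have := congrArg (fun f : Module.End ℤ (JOne M) => f (σ • σ • x)) (hinv u)
    simpa using this
  have h3 : S₀ (Sum.inr u⁻¹) (S₀ (idxT hp hpM) (σ • x)) =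
      (S₀ (idxT hp hpM) * S₀ (Sum.inr u⁻¹)) (σ • x) := by
    have := congrArg (fun f : Module.End ℤ (JOne M) => f (σ • x)) (hcomm (Sum.inr u⁻¹) (idxT hp hpM)).eq
    simpa using this
  rw [h2, h3] at h1
  exact h1

section Inputs

variable (M)

/-- **(K-GOODJ)** (X1-GOOD, output of G-4 in helper1's literal): good reduction of `K1 M`, with `j`
as separating variable of the orthonormal data, at every place of `ℚ̄` over a prime `p ∤ M`. -/
def KGoodJ : Prop :=
  ∀ p : ℕ, p.Prime → ¬ p ∣ M → ∀ A : ValuationSubring Qb, A.LiesOverPrime p → GoodReductionAtJ M A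

variable {M}

/-- **`KGeom M` from the owners' inputs**: helper24's `HeckeInputsOne M` (AN-3, AN-4, product
formula) whose diamonds fix `j`, good reduction (X1-GOOD) and the Kummer maps for the normalised
family (X1-KUM). -/
theorem kGeom_of_inputs (I : HeckeInputsOne M)
    (hdiaJ : ∀ d, I.dia d (jOne Qb M) = jOne Qb M) (hgood : KGoodJ M)
    (hkum : KKum M (normS I.S) (tLat M)) : KGeom M := by
  have hF : Fermat.Agent.Red.RiemannPkg Qb (K1Bar M) := I.riemannPkg
  have hcomm : KComm M I.S := I.S_commute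
  have hgal : KGal M I.S := fun σ i x => I.S_galois σ i x
  have hinv : ∀ d : (ZMod M)ˣ, I.S (Sum.inr d⁻¹) * I.S (Sum.inr d) = 1 := by
    intro d
    refine LinearMap.ext fun x => ?_
    show I.D d⁻¹ (I.D d x) = x
    rw [HeckeInputsOne.D_apply, HeckeInputsOne.D_apply, ← mul_smul, ← map_mul, ← map_mul,
      inv_mul_cancel, map_one, map_one, one_smul]
  have hes : KES M I.S true := by
    intro p hp hpM A hA σ hσ m hm x hx
    simp only [if_true]
    exact kES_et_S I hdiaJ hgood p hp hpM A hA σ hσ m hm x hx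
  refine ⟨hF, normS I.S, kComm_normS hcomm, kGal_normS hgal, hkum, ?_, Or.inl (kES_normS hcomm hinv hes)⟩
  exact kUnr_of_kGood M hF fun p hp hpM A hA => (hgood p hp hpM A hA).goodReductionAt

variable (M)

/-- **what remains per level `M`, in the owners' vocabulary**: good reduction (X1-GOOD), the Hecke
inputs (AN-3, AN-4, product formula) with diamonds fixing `j`, and the Kummer maps for the
normalised family (X1-KUM). -/
def KPort : Prop :=
  KGoodJ M ∧ ∃ I : HeckeInputsOne M, (∀ d, I.dia d (jOne Qb M) = jOne Qb M) ∧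
    KKum M (normS I.S) (tLat M)

variable {M}

theorem kGeom_of_kPort (h : KPort M) : KGeom M := by
  obtain ⟨hgood, I, hdiaJ, hkum⟩ := h
  exact kGeom_of_inputs I hdiaJ hgood hkum

end Inputs

/-- **S48 from the port, in the owners' vocabulary**: the conclusion is the frozen statement. -/
theorem s48_of_kPort (hcore : KResCore) (h : ∀ (M : ℕ) [NeZero M], 5 ≤ M → KPort M)
    (N : ℕ) [NeZero N] (ε : DirichletCharacter ℂ N) (f : CuspForm (Gamma1 N) 1)
    (hf₁ : ModularFormClass.qCoeff f 1 = 1)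
    (hT : ∀ p : ℕ, p.Prime → ¬ p ∣ N → ∀ n : ℕ,
        ModularFormClass.qCoeff f (p * n) +
            ε (p : ZMod N) * (if p ∣ n then ModularFormClass.qCoeff f (n / p) else 0) =
          ModularFormClass.qCoeff f p * ModularFormClass.qCoeff f n) :
    ∃ ρ : GQ →* GL (Fin 2) ℂ, GaloisFactorsThroughFiniteLevel ρ ∧
      (Deformation.matrixRepresentation ρ).IsIrreducible ∧
      ∀ p : ℕ, p.Prime → ¬ p ∣ N →
        ∀ A : ValuationSubring (AlgebraicClosure ℚ), A.LiesOverPrime p →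
          (∀ σ ∈ A.inertiaSubgroupIn ℚ, ρ σ = 1) ∧
          ∀ σ : GQ, A.IsFrobeniusAt σ p →
            ((ρ σ : GL (Fin 2) ℂ) : Matrix (Fin 2) (Fin 2) ℂ).trace = ModularFormClass.qCoeff f p ∧
            ((ρ σ : GL (Fin 2) ℂ) : Matrix (Fin 2) (Fin 2) ℂ).det = ε (p : ZMod N) :=
  s48_of_port hcore (fun M _ hM => kGeom_of_kPort (h M hM)) N ε f hf₁ hT

/-! ### v2: the abstract core is a theorem; helper24's normalised family -/

/-- **the abstract core** (helper18, `DS/X1Res/CoreChar.lean`). -/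
theorem kResCore : KResCore := Fermat.Agent.DS.X1Res.kResCore_holds

/-- the two `p mod M` agree. -/
theorem unitP_eq_unitOfPrime (p : {p : Nat.Primes // ¬ (p : ℕ) ∣ M}) :
    unitP p = unitOfPrime p.1 p.2 := rfl

/-- **`normS I.S` is helper24's normalised family `I.Stw (-1) 1`** (`T_p ⟨p⟩⁻¹`, `⟨d⟩⁻¹`). -/
theorem normS_S_eq_Stw (I : HeckeInputsOne M) : normS I.S = I.Stw (-1) 1 := by
  funext i
  rcases i with p | d
  · show I.T p.1 * I.D (unitP p)⁻¹ = I.T p.1 * I.D (unitOfPrime p.1 p.2 ^ (-1 : ℤ)) ^ 1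
    rw [pow_one, zpow_neg_one, unitP_eq_unitOfPrime]
  · show I.D d⁻¹ = I.D (d ^ (-1 : ℤ))
    rw [zpow_neg_one]

variable (M)

/-- **the port per level `M`, helper24's vocabulary**: `KPort M` with the Kummer maps stated for
`I.Stw (-1) 1`. -/
def KPortTw : Prop :=
  KGoodJ M ∧ ∃ I : HeckeInputsOne M, (∀ d, I.dia d (jOne Qb M) = jOne Qb M) ∧
    KKum M (I.Stw (-1) 1) (tLat M)

variable {M}

theorem kPort_of_kPortTw (h : KPortTw M) : KPort M := by
  obtain ⟨hgood, I, hdiaJ, hkum⟩ := h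
  refine ⟨hgood, I, hdiaJ, ?_⟩
  rw [normS_S_eq_Stw]
  exact hkum

theorem kPortTw_of_kPort (h : KPort M) : KPortTw M := by
  obtain ⟨hgood, I, hdiaJ, hkum⟩ := h
  refine ⟨hgood, I, hdiaJ, ?_⟩
  rw [← normS_S_eq_Stw]
  exact hkum

/-- **S48 from the port ALONE** (the abstract core plugged in). -/
theorem s48_of_kPort' (h : ∀ (M : ℕ) [NeZero M], 5 ≤ M → KPort M)
    (N : ℕ) [NeZero N] (ε : DirichletCharacter ℂ N) (f : CuspForm (Gamma1 N) 1)
    (hf₁ : ModularFormClass.qCoeff f 1 = 1)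
    (hT : ∀ p : ℕ, p.Prime → ¬ p ∣ N → ∀ n : ℕ,
        ModularFormClass.qCoeff f (p * n) +
            ε (p : ZMod N) * (if p ∣ n then ModularFormClass.qCoeff f (n / p) else 0) =
          ModularFormClass.qCoeff f p * ModularFormClass.qCoeff f n) :
    ∃ ρ : GQ →* GL (Fin 2) ℂ, GaloisFactorsThroughFiniteLevel ρ ∧
      (Deformation.matrixRepresentation ρ).IsIrreducible ∧
      ∀ p : ℕ, p.Prime → ¬ p ∣ N →
        ∀ A : ValuationSubring (AlgebraicClosure ℚ), A.LiesOverPrime p →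
          (∀ σ ∈ A.inertiaSubgroupIn ℚ, ρ σ = 1) ∧
          ∀ σ : GQ, A.IsFrobeniusAt σ p →
            ((ρ σ : GL (Fin 2) ℂ) : Matrix (Fin 2) (Fin 2) ℂ).trace = ModularFormClass.qCoeff f p ∧
            ((ρ σ : GL (Fin 2) ℂ) : Matrix (Fin 2) (Fin 2) ℂ).det = ε (p : ZMod N) :=
  s48_of_kPort kResCore h N ε f hf₁ hT

/-- **S48 from the port ALONE, helper24's vocabulary.** -/
theorem s48_of_kPortTw (h : ∀ (M : ℕ) [NeZero M], 5 ≤ M → KPortTw M)
    (N : ℕ) [NeZero N] (ε : DirichletCharacter ℂ N) (f : CuspForm (Gamma1 N) 1)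
    (hf₁ : ModularFormClass.qCoeff f 1 = 1)
    (hT : ∀ p : ℕ, p.Prime → ¬ p ∣ N → ∀ n : ℕ,
        ModularFormClass.qCoeff f (p * n) +
            ε (p : ZMod N) * (if p ∣ n then ModularFormClass.qCoeff f (n / p) else 0) =
          ModularFormClass.qCoeff f p * ModularFormClass.qCoeff f n) :
    ∃ ρ : GQ →* GL (Fin 2) ℂ, GaloisFactorsThroughFiniteLevel ρ ∧
      (Deformation.matrixRepresentation ρ).IsIrreducible ∧
      ∀ p : ℕ, p.Prime → ¬ p ∣ N →
        ∀ A : ValuationSubring (AlgebraicClosure ℚ), A.LiesOverPrime p →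
          (∀ σ ∈ A.inertiaSubgroupIn ℚ, ρ σ = 1) ∧
          ∀ σ : GQ, A.IsFrobeniusAt σ p →
            ((ρ σ : GL (Fin 2) ℂ) : Matrix (Fin 2) (Fin 2) ℂ).trace = ModularFormClass.qCoeff f p ∧
            ((ρ σ : GL (Fin 2) ℂ) : Matrix (Fin 2) (Fin 2) ℂ).det = ε (p : ZMod N) :=
  s48_of_kPort' (fun M _ hM => kPort_of_kPortTw (h M hM)) N ε f hf₁ hT

end Fermat.Agent.DS.X1OutPlug
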