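/-
PROGRAMME III (S48, Deligne–Serre) — X1-OUT FINAL (helper4): the port `KPortTw M` of
`DS/X1OutPlug.lean` from the owners' UNCONDITIONAL theorems.

* `kGoodJ M hM : KGoodJ M` (`3 ≤ M`) : good reduction of `K1 M`, with `j` as separating variable, at
  every place over `p ∤ M` — helper6's `GoodK1.exists_goodReduction_K1` (G-4 final assembly) on
  helper19's `IG.nonempty_chartInputs_K1` (X1-IRR/IG) and helper16's `Div.weberCuspData M` (AN-1b);
* `heckeInputsOne M hM : HeckeInputsOne M` (`3 ≤ M`) : helper24's `X1Hecke/Final.lean`, whose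
  diamonds fix `j` (`heckeInputsOne_dia_jOne`);
* `KKumFinal M hM` : THE LAST KERNEL — the Kummer maps `Λ₁(M) → J₁(M)(ℚ̄)` intertwining
  `(T1Lam p, diamondLam d)` with `(heckeInputsOne M hM).Stw (-1) 1` (X1-KUM final assembly);
* `kPortTw_of_kKum`, `s48_of_kKum : (∀ M ≥ 5, KKumFinal M _) → frozen S48`.
-/
import Fermat.Agent.DS.X1OutPlug
import Fermat.Agent.DS.X1Hecke.Final
import Fermat.Agent.DS.IG.ChartInputsK1
import Fermat.Agent.DS.X1.Good.GoodK1

set_option autoImplicit false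
set_option linter.style.haveILetI false
set_option linter.unusedSectionVars false

open scoped MatrixGroups
open CongruenceSubgroup

noncomputable section

namespace Fermat.Agent.DS.X1OutFinal

open Fermat.Agent.DS.Kum Fermat.Agent.DS.X1 Fermat.Agent.DS.X1Hecke Fermat.Agent.DS.ES
open Fermat.Agent.DS.X1OutSkeleton Fermat.Agent.DS.X1OutWiring Fermat.Agent.DS.X1OutPlug

local notation "Qb" => AlgebraicClosure ℚ
local notation "GQ" => (AlgebraicClosure ℚ ≃ₐ[ℚ] AlgebraicClosure ℚ)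

variable (M : ℕ) [NeZero M]

/-- **(K-GOODJ) is a theorem** (`3 ≤ M`). -/
theorem kGoodJ (hM : 3 ≤ M) : KGoodJ M := by
  intro p hp hpM A hA
  haveI : Fact p.Prime := ⟨hp⟩
  obtain ⟨I⟩ := Fermat.Agent.DS.IG.nonempty_chartInputs_K1 M p hM hpM
  obtain ⟨Ft, n, D', hst, hR, hg, hx⟩ :=
    Fermat.Agent.DS.X1.Good.GoodK1.exists_goodReduction_K1 A hA
      (Fermat.Agent.DS.Div.weberCuspData M) (by omega) hpM I
  exact ⟨Ft, n, D', hst, hR, hg, hx⟩

/-- **THE LAST KERNEL** (X1-KUM final assembly): the Kummer maps for the normalised family of the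
canonical Hecke inputs. -/
def KKumFinal (hM : 3 ≤ M) : Prop :=
  KKum M ((heckeInputsOne M hM).Stw (-1) 1) (tLat M)

variable {M}

/-- the port from the last kernel. -/
theorem kPortTw_of_kKum (hM : 3 ≤ M) (h : KKumFinal M hM) : KPortTw M :=
  ⟨kGoodJ M hM, heckeInputsOne M hM, heckeInputsOne_dia_jOne M hM, h⟩

/-- **S48 from the last kernel.** -/
theorem s48_of_kKum
    (h : ∀ (M : ℕ) [NeZero M] (hM : 5 ≤ M), KKumFinal M (le_trans (by norm_num) hM))
    (N : ℕ) [NeZero N] (ε : DirichletCharacter ℂ N) (f : CuspForm (Gamma1 N) 1)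
    (hf₁ : ModularFormClass.qCoeff f 1 = 1)
    (hT : ∀ p : ℕ, p.Prime → ¬ p ∣ N → ∀ n : ℕ,
        ModularFormClass.qCoeff f (p * n) +
            ε (p : ZMod N) * (if p ∣ n then ModularFormClass.qCoeff f (n / p) else 0) =
          ModularFormClass.qCoeff f p * ModularFormClass.qCoeff f n) :
    ∃ ρ : GQ →* GL (Fin 2) ℂ, GaloisFactorsThroughFiniteLevel ρ ∧
      (Deformation.matrixRepresentation ρ).IsIrreducible ∧
      ∀ p : ℕ, p.Prime → ¬ p ∣ N →
        ∀ A : ValuationSubring (AlgebraicClosure ℚ), A.LiesOverPrime p →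
          (∀ σ ∈ A.inertiaSubgroupIn ℚ, ρ σ = 1) ∧
          ∀ σ : GQ, A.IsFrobeniusAt σ p →
            ((ρ σ : GL (Fin 2) ℂ) : Matrix (Fin 2) (Fin 2) ℂ).trace = ModularFormClass.qCoeff f p ∧
            ((ρ σ : GL (Fin 2) ℂ) : Matrix (Fin 2) (Fin 2) ℂ).det = ε (p : ZMod N) :=
  s48_of_kPortTw (fun M _ hM => kPortTw_of_kKum (le_trans (by norm_num) hM) (h M hM)) N ε f hf₁ hT

end Fermat.Agent.DS.X1OutFinal
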