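/-
PROGRAMME III (S48, Deligne–Serre) — X1-OUT, THE LAST SEAM (helper4): the last kernel
`X1OutFinal.KKumFinal M hM` from the owners' theorems, and the frozen statement S48.

* `kKumFinal M hM : KKumFinal M hM` (`3 ≤ M`) : helper28's `kKum_one` (X1-KUM final assembly, on
  helper9's `exists_kummerMap_one` and helper5's `exists_red_compat`) at
  `D := Div.weberCuspData M` (helper16), `I := heckeInputsOne M hM` (helper24),
  `δ := diamondQ (Div.weberAnData M)` (helper2; `hδ` by `rfl`), with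
  `hstar := kappaOneW_T1Lam_star_TbOne` (helper7, on helper21/helper22/helper15/helper29) and
  `hdia := kappaLamOf_diamondLam_one` (helper9);
* `s48` : the frozen statement S48, unconditionally.
-/
import Fermat.Agent.DS.X1OutFinal
import Fermat.Agent.DS.Kum.C.KKumOneInst
import Fermat.Agent.DS.Kum.C.HStarOne
import Fermat.Agent.DS.Kum.An.DiamondOne

set_option autoImplicit false
set_option linter.style.haveILetI false
set_option linter.unusedSectionVars false

open scoped MatrixGroups
open CongruenceSubgroup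

noncomputable section

namespace Fermat.Agent.DS.X1OutS48

open Fermat.Agent.DS.Kum Fermat.Agent.DS.X1 Fermat.Agent.DS.X1Hecke Fermat.Agent.DS.J1Spec
open Fermat.Agent.DS.X1OutFinal

local notation "GQ" => (AlgebraicClosure ℚ ≃ₐ[ℚ] AlgebraicClosure ℚ)

/-- **THE LAST KERNEL is a theorem** (`3 ≤ M`): the Kummer maps `Λ₁(M) → J₁(M)(ℚ̄)` intertwining
`(T1Lam p, diamondLam d)` with the normalised family `(T_p ⟨p⟩⁻¹, ⟨d⟩⁻¹)` of the canonical Hecke
inputs. -/
theorem kKumFinal (M : ℕ) [NeZero M] (hM : 3 ≤ M) : KKumFinal M hM := by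
  haveI := hasPrincipalDivisors_K1C (Fermat.Agent.DS.Div.weberCuspData M) hM
  exact kKum_one (Fermat.Agent.DS.Div.weberCuspData M) hM (heckeInputsOne M hM)
    (fun d => diamondQ (Fermat.Agent.DS.Div.weberAnData M) d) (fun _ => rfl)
    (fun p _ hm _ hζ l =>
      kappaOneW_T1Lam_star_TbOne (Fermat.Agent.DS.Div.weberCuspData M) hM p hm hζ l)
    (fun d _ hm _ hζ l =>
      kappaLamOf_diamondLam_one (Fermat.Agent.DS.Div.weberCuspData M)
        (thetaDataOneW (Fermat.Agent.DS.Div.weberCuspData M) hM) rfl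
        (hD4_oneW (Fermat.Agent.DS.Div.weberCuspData M) hM) d hm hζ l)

/-- **S48** (Deligne–Serre): the Galois representation of a weight-one normalised Hecke
eigenform. -/
theorem s48 (N : ℕ) [NeZero N] (ε : DirichletCharacter ℂ N) (f : CuspForm (Gamma1 N) 1)
    (hf₁ : ModularFormClass.qCoeff f 1 = 1)
    (hT : ∀ p : ℕ, p.Prime → ¬ p ∣ N → ∀ n : ℕ,
        ModularFormClass.qCoeff f (p * n) +
            ε (p : ZMod N) * (if p ∣ n then ModularFormClass.qCoeff f (n / p) else 0) =
          ModularFormClass.qCoeff f p * ModularFormClass.qCoeff f n) :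
    ∃ ρ : GQ →* GL (Fin 2) ℂ, GaloisFactorsThroughFiniteLevel ρ ∧
      (Deformation.matrixRepresentation ρ).IsIrreducible ∧
      ∀ p : ℕ, p.Prime → ¬ p ∣ N →
        ∀ A : ValuationSubring (AlgebraicClosure ℚ), A.LiesOverPrime p →
          (∀ σ ∈ A.inertiaSubgroupIn ℚ, ρ σ = 1) ∧
          ∀ σ : GQ, A.IsFrobeniusAt σ p →
            ((ρ σ : GL (Fin 2) ℂ) : Matrix (Fin 2) (Fin 2) ℂ).trace = ModularFormClass.qCoeff f p ∧
            ((ρ σ : GL (Fin 2) ℂ) : Matrix (Fin 2) (Fin 2) ℂ).det = ε (p : ZMod N) :=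
  s48_of_kKum (fun M _ hM => kKumFinal M (le_trans (by norm_num) hM)) N ε f hf₁ hT

end Fermat.Agent.DS.X1OutS48
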